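/-
T14 / RC: basic consequences of `CATSetting`.
-/
import Fermat.Agent.S14.Defs

set_option autoImplicit false

open NumberField

namespace Fermat.Agent.S14.RC

variable {p : ℕ} {L : Type} [Field L] [NumberField L] {K : IntermediateField ℚ L}

theorem isGalois_top (h : CATSetting p L K) : IsGalois K L :=
  have := h.galois
  inferInstance

theorem card_gal (h : CATSetting p L K) [IsGalois K L] : Nat.card (L ≃ₐ[K] L) = p := by
  rw [IsGalois.card_aut_eq_finrank, h.deg]

theorem isCyclic_gal (h : CATSetting p L K) [IsGalois K L] : IsCyclic (L ≃ₐ[K] L) :=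
  haveI : Fact p.Prime := ⟨h.prime⟩
  isCyclic_of_prime_card (card_gal h)

theorem isAbelianGalois (h : CATSetting p L K) : IsAbelianGalois K L :=
  haveI := isGalois_top h
  haveI := isCyclic_gal h
  IsAbelianGalois.of_isCyclic K L

theorem pow_p_eq_one (h : CATSetting p L K) [IsGalois K L] (τ : L ≃ₐ[K] L) : τ ^ p = 1 := by
  haveI : Finite (L ≃ₐ[K] L) := Nat.finite_of_card_ne_zero (by rw [card_gal h]; exact h.prime.ne_zero)
  rw [← card_gal h]
  exact pow_card_eq_one'

theorem isTotallyComplex (h : CATSetting p L K) : IsTotallyComplex K := by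
  haveI := h.cyclo
  haveI : NeZero p := ⟨h.prime.ne_zero⟩
  have := IsCyclotomicExtension.Rat.nrRealPlaces_eq_zero (n := p) K (by have := h.three_le; omega)
  exact NumberField.nrRealPlaces_eq_zero_iff.mp this

/-- every element of `Gal(L/K)` is a power of a given nontrivial one -/
theorem exists_pow_eq (h : CATSetting p L K) [IsGalois K L] (σ : L ≃ₐ[K] L) (hσ : σ ≠ 1)
    (τ : L ≃ₐ[K] L) : ∃ d : ℕ, d < p ∧ τ = σ ^ d := by
  haveI : Fact p.Prime := ⟨h.prime⟩
  have hz : Subgroup.zpowers σ = ⊤ := zpowers_eq_top_of_prime_card (card_gal h) hσ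
  have hτ : τ ∈ Subgroup.zpowers σ := by rw [hz]; trivial
  obtain ⟨k, hk⟩ := Subgroup.mem_zpowers_iff.mp hτ
  refine ⟨(k % p).toNat, ?_, ?_⟩
  · have := Int.emod_lt_of_pos k (by exact_mod_cast h.prime.pos : (0 : ℤ) < p)
    have h0 := Int.emod_nonneg k (by exact_mod_cast h.prime.ne_zero : (p : ℤ) ≠ 0)
    omega
  · have h0 := Int.emod_nonneg k (by exact_mod_cast h.prime.ne_zero : (p : ℤ) ≠ 0)
    rw [← hk, ← zpow_natCast, Int.toNat_of_nonneg h0]
    have hp1 : σ ^ (p : ℤ) = 1 := by rw [zpow_natCast]; exact pow_p_eq_one h σ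
    conv_lhs => rw [← Int.emod_add_mul_ediv k p]
    rw [zpow_add, zpow_mul, hp1, one_zpow, mul_one]

end Fermat.Agent.S14.RC
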