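/-
T14 / CAT package CJ: conjugation of Frobenius elements by `Gal(K/ℚ)` in the CAT setting.

(CJ-1) `frobAt K L (s⁻¹ • 𝔮) = frobAt K L 𝔮 ^ t` whenever `s ζ = ζ ^ t`.
(CJ-2) `artinMap (∏_{t ≤ (p-1)/2} (σ t)⁻¹ • 𝔮) = frobAt K L 𝔮 ^ (∑ t)`.
(CJ-3) `p ∤ ∑_{t ≤ (p-1)/2} t`.
(CJ-4) a family `σ t ∈ Gal(K/ℚ)` with `σ t ζ = ζ ^ t` (`1 ≤ t ≤ (p-1)/2`).
-/
import Fermat.Agent.S14.Artin
import Fermat.Agent.S14.RC.Setup
import Fermat.Agent.S14.JacobiAux2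

set_option autoImplicit false

open NumberField nonZeroDivisors
open scoped Pointwise

namespace Fermat.Agent.S14.RC

variable {p : ℕ} {L : Type} [Field L] [NumberField L] {K : IntermediateField ℚ L}

/-! ### (CJ-3) -/

theorem sum_half_mul_eight {p : ℕ} (hodd : p % 2 = 1) :
    8 * ∑ t ∈ Finset.Icc 1 ((p - 1) / 2), t = p ^ 2 - 1 := by
  obtain ⟨m, rfl⟩ : ∃ m, p = 2 * m + 1 := ⟨p / 2, by omega⟩
  have hm : (2 * m + 1 - 1) / 2 = m := by omega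
  rw [hm]
  have h2 : (∑ t ∈ Finset.Icc 1 m, t) * 2 = m * (m + 1) := by
    have := Finset.sum_range_id_mul_two (m + 1)
    rw [Finset.range_eq_Ico, ← Finset.sum_Ioo_add_eq_sum_Ico (by omega : 0 < m + 1)] at this
    simp only [add_zero, Nat.add_sub_cancel] at this
    have hI : Finset.Ioo 0 (m + 1) = Finset.Icc 1 m := by
      ext x; simp only [Finset.mem_Ioo, Finset.mem_Icc]; omega
    rw [hI] at this
    rw [this]; ring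
  have h3 : (2 * m + 1) ^ 2 - 1 = 4 * (m * (m + 1)) := by
    have : (2 * m + 1) ^ 2 = 4 * (m * (m + 1)) + 1 := by ring
    omega
  rw [h3, ← h2]; ring

theorem not_dvd_sum_half {p : ℕ} (hp : p.Prime) (h3 : 3 ≤ p) :
    ¬ p ∣ ∑ t ∈ Finset.Icc 1 ((p - 1) / 2), t := by
  intro hdvd
  have hodd : p % 2 = 1 := by
    rcases hp.eq_two_or_odd with h | h
    · omega
    · exact h
  have h8 := sum_half_mul_eight hodd
  have h1 : p ∣ p ^ 2 - 1 := by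
    rw [← h8]; exact Dvd.dvd.mul_left hdvd 8
  have h2 : p ∣ p ^ 2 := dvd_pow_self p two_ne_zero
  have h4 : 1 ≤ p ^ 2 := Nat.one_le_pow _ _ hp.pos
  have h5 : p ∣ 1 := by
    have := (Nat.dvd_sub h2 h1)
    rwa [Nat.sub_sub_self h4] at this
  exact hp.one_lt.ne' (Nat.dvd_one.mp h5)

/-! ### lifting automorphisms, conjugating Frobenius elements -/

/-- lift an automorphism of `K` to `L` -/
theorem exists_lift_aut (h : CATSetting p L K) (s : K ≃ₐ[ℚ] K) :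
    ∃ st : L ≃ₐ[ℚ] L, ∀ k : K, st (k : L) = ((s k : K) : L) := by
  have := h.galois
  have := h.cyclo
  have : IsGalois ℚ K := IsCyclotomicExtension.isGalois {p} ℚ K
  obtain ⟨st, hst⟩ := AlgEquiv.restrictNormalHom_surjective (F := ℚ) (K₁ := K) L s
  refine ⟨st, fun k => ?_⟩
  rw [← hst]
  exact (AlgEquiv.restrictNormal_commutes st K k).symm

/-- the prime of `K` below `st⁻¹ • 𝔔` is `s⁻¹ • (𝔔 ∩ 𝓞 K)` -/
theorem under_inv_smul (s : K ≃ₐ[ℚ] K) (st : L ≃ₐ[ℚ] L)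
    (hst : ∀ k : K, st (k : L) = ((s k : K) : L)) (𝔔 : Ideal (𝓞 L)) :
    (st⁻¹ • 𝔔).under (𝓞 K) = s⁻¹ • (𝔔.under (𝓞 K)) := by
  ext x
  rw [Ideal.under_def, Ideal.mem_comap, Ideal.mem_inv_pointwise_smul_iff,
    Ideal.mem_inv_pointwise_smul_iff, Ideal.under_def, Ideal.mem_comap]
  have : st • (algebraMap (𝓞 K) (𝓞 L) x) = algebraMap (𝓞 K) (𝓞 L) (s • x) := by
    apply RingOfIntegers.ext
    exact hst (x : K)
  rw [this]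

theorem restrictScalars_pow_apply' (τ : L ≃ₐ[K] L) (n : ℕ) (y : L) :
    (AlgEquiv.restrictScalars ℚ τ ^ n) y = (τ ^ n) y := by
  induction n generalizing y with
  | zero => rfl
  | succ n ih =>
    rw [pow_succ, pow_succ, AlgEquiv.mul_apply, AlgEquiv.mul_apply, ih]
    rfl

/-- conjugating a Frobenius: if `τ` is a Frobenius at `𝔔` and `st⁻¹ τ st = τ ^ t`, then `τ ^ t` is a
Frobenius at `st⁻¹ • 𝔔`. -/
theorem isArithFrobAt_pow_inv_smul [IsGalois K L] (s : K ≃ₐ[ℚ] K) (st : L ≃ₐ[ℚ] L)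
    (hst : ∀ k : K, st (k : L) = ((s k : K) : L)) (𝔔 : Ideal (𝓞 L)) (τ : L ≃ₐ[K] L) (t : ℕ)
    (hconj : st⁻¹ * τ.restrictScalars ℚ * st = (τ.restrictScalars ℚ) ^ t)
    (hτ : IsArithFrobAt (𝓞 K) τ 𝔔) : IsArithFrobAt (𝓞 K) (τ ^ t) (st⁻¹ • 𝔔) := by
  intro x
  have hN : Nat.card (𝓞 K ⧸ (st⁻¹ • 𝔔).under (𝓞 K)) = Nat.card (𝓞 K ⧸ 𝔔.under (𝓞 K)) := by
    rw [under_inv_smul s st hst]
    have := Jacobi.absNorm_galSmul s⁻¹ (𝔔.under (𝓞 K))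
    rwa [Ideal.absNorm_apply, Ideal.absNorm_apply, Submodule.cardQuot_apply,
      Submodule.cardQuot_apply] at this
  rw [hN]
  have hx := hτ (st • x)
  have h2 : st⁻¹ • ((MulSemiringAction.toAlgHom (𝓞 K) (𝓞 L) τ) (st • x) -
      (st • x) ^ Nat.card (𝓞 K ⧸ 𝔔.under (𝓞 K))) ∈ st⁻¹ • 𝔔 :=
    Ideal.smul_mem_pointwise_smul _ _ _ hx
  convert h2 using 1
  rw [smul_sub, smul_pow', inv_smul_smul]
  congr 1
  apply RingOfIntegers.ext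
  have h3 := congrArg (fun g : L ≃ₐ[ℚ] L => g (x : L)) hconj
  simp only [AlgEquiv.mul_apply] at h3
  show (τ ^ t) (x : L) = st⁻¹ (τ (st (x : L)))
  rw [← restrictScalars_pow_apply', ← h3]
  rfl


/-! ### (CJ-1) -/

theorem inv_smul_ne_bot (s : K ≃ₐ[ℚ] K) {𝔮 : Ideal (𝓞 K)} (h𝔮 : 𝔮 ≠ ⊥) : s⁻¹ • 𝔮 ≠ ⊥ := by
  intro h0
  apply h𝔮
  have : s • (s⁻¹ • 𝔮) = 𝔮 := smul_inv_smul s 𝔮
  rw [← this, h0, Ideal.smul_bot]

theorem inv_smul_ne_bot' (st : L ≃ₐ[ℚ] L) {𝔔 : Ideal (𝓞 L)} (h𝔔 : 𝔔 ≠ ⊥) : st⁻¹ • 𝔔 ≠ ⊥ := by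
  intro h0
  apply h𝔔
  have : st • (st⁻¹ • 𝔔) = 𝔔 := smul_inv_smul st 𝔔
  rw [← this, h0, Ideal.smul_bot]

/-- (CJ-1) conjugation formula for Frobenius elements in the CAT setting. -/
theorem frobAt_inv_smul (h : CATSetting p L K) [IsAbelianGalois K L] (s : K ≃ₐ[ℚ] K) (ζ : K)
    (hζ : IsPrimitiveRoot ζ p) (t : ℕ) (hs : s ζ = ζ ^ t) (𝔮 : Ideal (𝓞 K)) [𝔮.IsPrime]
    (h𝔮 : 𝔮 ≠ ⊥) : frobAt K L (s⁻¹ • 𝔮) = frobAt K L 𝔮 ^ t := by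
  obtain ⟨st, hst⟩ := exists_lift_aut h s
  obtain ⟨𝔔, h𝔔p, h𝔔, hunder⟩ := exists_prime_over K L h𝔮
  have hτ : IsArithFrobAt (𝓞 K) (frobAt K L 𝔮) 𝔔 := isArithFrobAt_frobAt' K L 𝔔 h𝔔 hunder
  have hζL : IsPrimitiveRoot ((ζ : K) : L) p := hζ.map_of_injective (algebraMap K L).injective
  have hstζ : st ((ζ : K) : L) = ((ζ : K) : L) ^ t := by
    rw [hst ζ, hs]
    simp
  have hact := h.act st (frobAt K L 𝔮) _ t hζL hstζ
  have hF := isArithFrobAt_pow_inv_smul s st hst 𝔔 (frobAt K L 𝔮) t hact hτ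
  have h1 := eq_frobAt_of_isArithFrobAt K L h.unram (st⁻¹ • 𝔔) (inv_smul_ne_bot' st h𝔔) _ hF
  rw [under_inv_smul s st hst, hunder] at h1
  exact h1.symm

/-! ### (CJ-2) -/

open scoped IsMulCommutative in
/-- (CJ-2) the Artin symbol of the half-product of conjugates of `𝔮`. -/
theorem artinMap_half_prod (h : CATSetting p L K) [IsAbelianGalois K L] (ζ : K)
    (hζ : IsPrimitiveRoot ζ p) (σ : ℕ → (K ≃ₐ[ℚ] K))
    (hσ : ∀ t ∈ Finset.Icc 1 ((p - 1) / 2), σ t ζ = ζ ^ t) (𝔮 : Ideal (𝓞 K)) [𝔮.IsPrime]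
    (h𝔮 : 𝔮 ≠ ⊥)
    (hI : (∏ t ∈ Finset.Icc 1 ((p - 1) / 2), ((σ t)⁻¹ • 𝔮)) ∈ (Ideal (𝓞 K))⁰) :
    artinMap K L ⟨_, hI⟩ = frobAt K L 𝔮 ^ (∑ t ∈ Finset.Icc 1 ((p - 1) / 2), t) := by
  have hmem : ∀ t, ((σ t)⁻¹ • 𝔮) ∈ (Ideal (𝓞 K))⁰ := fun t =>
    mem_nonZeroDivisors_of_ne_zero (inv_smul_ne_bot (σ t) h𝔮)
  have hprod : (⟨_, hI⟩ : (Ideal (𝓞 K))⁰) =
      ∏ t ∈ Finset.Icc 1 ((p - 1) / 2), (⟨(σ t)⁻¹ • 𝔮, hmem t⟩ : (Ideal (𝓞 K))⁰) := by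
    apply Subtype.ext
    rw [Submonoid.coe_finsetProd]
  rw [hprod, map_prod, ← Finset.prod_pow_eq_pow_sum]
  refine Finset.prod_congr rfl fun t ht => ?_
  rw [artinMap_mk_prime K L ((σ t)⁻¹ • 𝔮) (inv_smul_ne_bot (σ t) h𝔮)]
  exact frobAt_inv_smul h (σ t) ζ hζ t (hσ t ht) 𝔮 h𝔮

/-! ### (CJ-4) -/

/-- (CJ-4) in `K = ℚ(ζ_p)` there is for every `t` prime to `p` an automorphism `ζ ↦ ζ ^ t`. -/
theorem exists_aut_pow {p : ℕ} (hp : p.Prime) (K : Type*) [Field K] [NumberField K]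
    [IsCyclotomicExtension {p} ℚ K] (ζ : K) (hζ : IsPrimitiveRoot ζ p) (t : ℕ)
    (ht : Nat.Coprime t p) : ∃ s : K ≃ₐ[ℚ] K, s ζ = ζ ^ t := by
  have hpos : 0 < p := hp.pos
  have : NeZero p := ⟨hp.ne_zero⟩
  have hζt : IsPrimitiveRoot (ζ ^ t) p := hζ.pow_of_coprime t ht
  have hmin : minpoly ℚ (hζ.powerBasis ℚ).gen = minpoly ℚ (hζt.powerBasis ℚ).gen := by
    rw [IsPrimitiveRoot.powerBasis_gen, IsPrimitiveRoot.powerBasis_gen,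
      ← Polynomial.cyclotomic_eq_minpoly_rat hζ hpos, ← Polynomial.cyclotomic_eq_minpoly_rat hζt hpos]
  refine ⟨(hζ.powerBasis ℚ).equivOfMinpoly (hζt.powerBasis ℚ) hmin, ?_⟩
  have := (hζ.powerBasis ℚ).equivOfMinpoly_gen (hζt.powerBasis ℚ) hmin
  rwa [IsPrimitiveRoot.powerBasis_gen, IsPrimitiveRoot.powerBasis_gen] at this

theorem exists_family_aut_pow {p : ℕ} (hp : p.Prime) (K : Type*) [Field K] [NumberField K]
    [IsCyclotomicExtension {p} ℚ K] (ζ : K) (hζ : IsPrimitiveRoot ζ p) :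
    ∃ σ : ℕ → (K ≃ₐ[ℚ] K), ∀ t ∈ Finset.Icc 1 ((p - 1) / 2), σ t ζ = ζ ^ t := by
  classical
  have hex : ∀ t : ℕ, ∃ s : K ≃ₐ[ℚ] K, t ∈ Finset.Icc 1 ((p - 1) / 2) → s ζ = ζ ^ t := by
    intro t
    by_cases ht : t ∈ Finset.Icc 1 ((p - 1) / 2)
    · have hcop : Nat.Coprime t p := by
        rw [Finset.mem_Icc] at ht
        have h1 := hp.two_le
        apply Nat.Coprime.symm
        rw [hp.coprime_iff_not_dvd]
        intro hd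
        have := Nat.le_of_dvd (by omega) hd
        omega
      obtain ⟨s, hs⟩ := exists_aut_pow hp K ζ hζ t hcop
      exact ⟨s, fun _ => hs⟩
    · exact ⟨1, fun h => absurd h ht⟩
  choose σ hσ using hex
  exact ⟨σ, hσ⟩

end Fermat.Agent.S14.RC
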