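/-
T14 package RC-aux: the auxiliary prime `m` needed by `crossing_step`, obtained from package NS
(`exists_prime_not_split`) and the Kummer toolkit KU (`SI/Kummer.lean`).
-/
import Fermat.Agent.S14.NonSplit
import Fermat.Agent.S14.NonSplit.Compare
import Fermat.Agent.S14.SI.Kummer

set_option autoImplicit false

open NumberField Polynomial

namespace Fermat.Agent.S14

namespace AuxPrime

/-- A rational number which is a `p`-th power in `ℚ(ζ_p)` is a `p`-th power in `ℚ`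
(degree reasons: `[ℚ(ζ_p):ℚ] = p - 1 < p`). -/
theorem rat_isPow_of_isPow_cyclotomic {p : ℕ} (hp : p.Prime) (K : Type*) [Field K]
    [NumberField K] [IsCyclotomicExtension {p} ℚ K] (c : ℚ) (y : K)
    (hy : y ^ p = algebraMap ℚ K c) : ∃ r : ℚ, r ^ p = c := by
  by_contra hne
  push Not at hne
  have : NeZero p := ⟨hp.ne_zero⟩
  have hirr : Irreducible (X ^ p - C c : ℚ[X]) := X_pow_sub_C_irreducible_of_prime hp hne
  have hroot : aeval y (X ^ p - C c : ℚ[X]) = 0 := by simp [hy]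
  have hmin : minpoly ℚ y = X ^ p - C c :=
    (minpoly.eq_of_irreducible_of_monic hirr hroot (monic_X_pow_sub_C c hp.ne_zero)).symm
  have hdeg : (minpoly ℚ y).natDegree = p := by rw [hmin, natDegree_X_pow_sub_C]
  have hle : (minpoly ℚ y).natDegree ≤ Module.finrank ℚ K := minpoly.natDegree_le y
  have hfin : Module.finrank ℚ K = p - 1 := by
    rw [IsCyclotomicExtension.finrank K (cyclotomic.irreducible_rat hp.pos),
      Nat.totient_prime hp]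
  have := hp.two_le
  omega

/-- `a^k / b^i` is not a `p`-th power in `ℚ` when `p ∤ i` (`a ≠ b` primes). -/
theorem rat_pow_ne_div {p : ℕ} (a b : ℕ) (ha : a.Prime) (hb : b.Prime) (hab : a ≠ b)
    (i k : ℕ) (hi : ¬ p ∣ i) (r : ℚ) : r ^ p ≠ (a : ℚ) ^ k / (b : ℚ) ^ i := by
  intro h
  have := Fact.mk ha
  have := Fact.mk hb
  have ha0 : (a : ℚ) ≠ 0 := Nat.cast_ne_zero.mpr ha.ne_zero
  have hb0 : (b : ℚ) ≠ 0 := Nat.cast_ne_zero.mpr hb.ne_zero
  have h1 := congrArg (padicValRat b) h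
  rw [padicValRat.pow, padicValRat.div (pow_ne_zero k ha0) (pow_ne_zero i hb0),
    padicValRat.pow, padicValRat.pow, padicValRat.self hb.one_lt,
    padicValRat.of_nat, padicValNat_primes hab.symm] at h1
  apply hi
  have : (p : ℤ) ∣ (i : ℤ) := ⟨-padicValRat b r, by push_cast at h1 ⊢; linarith⟩
  exact_mod_cast this

/-- `a / (a^k / b^i)^j` is not a `p`-th power in `ℚ` when `p ∤ i` (`a ≠ b` primes, `p` prime). -/
theorem rat_pow_ne_div_pow {p : ℕ} (hp : p.Prime) (a b : ℕ) (ha : a.Prime) (hb : b.Prime)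
    (hab : a ≠ b) (i k : ℕ) (hi : ¬ p ∣ i) (j : ℕ) (r : ℚ) :
    r ^ p ≠ (a : ℚ) / ((a : ℚ) ^ k / (b : ℚ) ^ i) ^ j := by
  intro h
  have := Fact.mk ha
  have := Fact.mk hb
  have ha0 : (a : ℚ) ≠ 0 := Nat.cast_ne_zero.mpr ha.ne_zero
  have hb0 : (b : ℚ) ≠ 0 := Nat.cast_ne_zero.mpr hb.ne_zero
  have hu0 : (a : ℚ) ^ k / (b : ℚ) ^ i ≠ 0 := div_ne_zero (pow_ne_zero k ha0) (pow_ne_zero i hb0)
  have h1 := congrArg (padicValRat b) h
  have h2 := congrArg (padicValRat a) h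
  rw [padicValRat.pow, padicValRat.div ha0 (pow_ne_zero j hu0), padicValRat.pow,
    padicValRat.div (pow_ne_zero k ha0) (pow_ne_zero i hb0),
    padicValRat.pow, padicValRat.pow, padicValRat.self hb.one_lt,
    padicValRat.of_nat, padicValNat_primes hab.symm] at h1
  rw [padicValRat.pow, padicValRat.div ha0 (pow_ne_zero j hu0), padicValRat.pow,
    padicValRat.div (pow_ne_zero k ha0) (pow_ne_zero i hb0),
    padicValRat.pow, padicValRat.pow, padicValRat.self ha.one_lt,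
    padicValRat.of_nat, padicValNat_primes hab] at h2
  have hji : (p : ℤ) ∣ (j : ℤ) * (i : ℤ) := ⟨padicValRat b r, by push_cast at h1 ⊢; linarith⟩
  have hj : (p : ℤ) ∣ (j : ℤ) := by
    rcases (Nat.prime_iff_prime_int.mp hp).dvd_or_dvd hji with h' | h'
    · exact h'
    · exact absurd (by exact_mod_cast h') hi
  obtain ⟨t, ht⟩ := hj
  have h1' : (p : ℤ) ∣ 1 :=
    ⟨padicValRat a r + t * k, by push_cast at h2 ⊢; rw [ht] at h2; linarith⟩
  have := Int.eq_one_of_dvd_one (by positivity) h1'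
  have := hp.one_lt
  omega

/-- If the prime number `N 𝔐` exceeds `p`, then `p ∉ 𝔐`. -/
theorem natCast_notMem_of_lt {F : Type*} [Field F] [NumberField F] {p : ℕ} (hp : p.Prime)
    (𝔐 : Ideal (𝓞 F)) [𝔐.IsPrime] (hN : (Ideal.absNorm 𝔐).Prime) (hlt : p < Ideal.absNorm 𝔐) :
    (p : 𝓞 F) ∉ 𝔐 := by
  intro hmem
  have hm := Ideal.absNorm_mem 𝔐
  have hcop : Nat.Coprime (Ideal.absNorm 𝔐) p :=
    (Nat.coprime_primes hN hp).mpr (ne_of_gt hlt)
  have h1 : ((Nat.gcd (Ideal.absNorm 𝔐) p : ℤ) : 𝓞 F) ∈ 𝔐 := by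
    rw [Nat.gcd_eq_gcd_ab]
    push_cast
    exact 𝔐.add_mem (𝔐.mul_mem_right _ hm) (𝔐.mul_mem_right _ hmem)
  rw [hcop] at h1
  exact (Ideal.IsPrime.ne_top ‹_›) ((Ideal.eq_top_iff_one _).mpr (by simpa using h1))

/-- For `p ∉ v` the precision `prec p v` is `1`. -/
theorem prec_eq_one {F : Type*} [Field F] [NumberField F] {p : ℕ} (v : Ideal (𝓞 F))
    (hpv : (p : 𝓞 F) ∉ v) : SI.prec p v = 1 := by
  have : SI.ordP p v = 0 := by
    rw [SI.ordP, multiplicity_eq_zero, Ideal.dvd_iff_le, Ideal.span_singleton_le_iff_mem]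
    exact hpv
  rw [SI.prec, this]
  simp

open scoped Pointwise in
/-- General form: a degree-one prime of large norm at which `c` is not a local `p`-th power. -/
theorem exists_degOne_prime_not_isLocalPow {p : ℕ} (hp : p.Prime) (hp2 : p ≠ 2)
    {F : Type*} [Field F] [NumberField F] (ζ : F) (hζ : IsPrimitiveRoot ζ p)
    (c : Fˣ) (hc : ∀ y : F, y ^ p ≠ c) (M : ℕ) :
    ∃ 𝔐 : Ideal (𝓞 F), 𝔐.IsPrime ∧ 𝔐 ≠ ⊥ ∧ (Ideal.absNorm 𝔐).Prime ∧ M < Ideal.absNorm 𝔐 ∧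
      ¬ SI.IsLocalPow p 𝔐 1 c := by
  classical
  have : NeZero p := ⟨hp.ne_zero⟩
  have : IsGalois F (SI.kummerExt F p (c : F)) := SI.kummerExt_isGalois hp ζ hζ c
  have hdeg : Module.finrank F (SI.kummerExt F p (c : F)) = p :=
    SI.finrank_kummerExt hp ζ hζ c hc
  obtain ⟨𝔐, h𝔐p, h𝔐0, h𝔐N, h𝔐B, hns⟩ :=
    exists_prime_not_split F (SI.kummerExt F p (c : F)) (by rw [hdeg]; exact hp.one_lt)
      (Ideal.finite_setOfPred_absNorm_le (S := 𝓞 F) (max M p)).toFinset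
  have hlt : max M p < Ideal.absNorm 𝔐 := by
    by_contra hle
    exact h𝔐B (by simpa using not_lt.mp hle)
  refine ⟨𝔐, h𝔐p, h𝔐0, h𝔐N, lt_of_le_of_lt (le_max_left _ _) hlt, ?_⟩
  intro hloc
  have hp𝔐 : (p : 𝓞 F) ∉ 𝔐 :=
    natCast_notMem_of_lt hp 𝔐 h𝔐N (lt_of_le_of_lt (le_max_right _ _) hlt)
  -- a prime above `𝔐`
  obtain ⟨⟨P, hPp, hPo⟩⟩ := 𝔐.nonempty_primesOver (S := 𝓞 (SI.kummerExt F p (c : F)))
  have hPu : P.under (𝓞 F) = 𝔐 := hPo.over.symm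
  have hP0 : P ≠ ⊥ := by
    rintro rfl
    apply h𝔐0
    rw [← hPu, Ideal.under_bot]
  -- the root
  have hirr : Irreducible (X ^ p - C (c : F) : F[X]) := X_pow_sub_C_irreducible_of_prime hp hc
  set β := rootOfSplitsXPowSubC (NeZero.pos p) (c : F) (SI.kummerExt F p (c : F)) with hβdef
  have hβ : β ^ p = algebraMap F (SI.kummerExt F p (c : F)) (c : F) := rootOfSplitsXPowSubC_pow _ _
  have htop : IntermediateField.adjoin F {β} = ⊤ :=
    IntermediateField.adjoin_root_eq_top_of_isSplittingField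
      ⟨ζ, (mem_primitiveRoots hp.pos).mpr hζ⟩ hirr hβ
  -- the decomposition group of `P` is trivial
  have htriv : ∀ τ : (SI.kummerExt F p (c : F)) ≃ₐ[F] (SI.kummerExt F p (c : F)),
      (∀ z : 𝓞 (SI.kummerExt F p (c : F)), z ∈ P → τ • z ∈ P) → τ = 1 := fun τ hτ =>
    SI.decomposition_trivial_of_isLocalPow hp hp2 ζ hζ c β hβ htop P hP0
      (by rw [hPu, prec_eq_one 𝔐 hp𝔐]; exact hloc) τ hτ
  have := NonSplit.isGaloisGroup_ringOfIntegers F (SI.kummerExt F p (c : F))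
  have hstab : MulAction.stabilizer ((SI.kummerExt F p (c : F)) ≃ₐ[F] (SI.kummerExt F p (c : F))) P
      = ⊥ := by
    rw [eq_bot_iff]
    intro τ hτ
    rw [MulAction.mem_stabilizer_iff] at hτ
    rw [Subgroup.mem_bot]
    refine htriv τ fun z hz => ?_
    rw [← hτ]
    exact Ideal.smul_mem_pointwise_smul_iff.mpr hz
  have : P.LiesOver 𝔐 := hPo
  have : Finite (𝓞 F ⧸ 𝔐) := Ideal.finiteQuotientOfFreeOfNeBot 𝔐 h𝔐0
  have : 𝔐.IsMaximal := Ring.DimensionLEOne.maximalOfPrime h𝔐0 h𝔐p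
  have : Finite 𝔐.ResidueField :=
    Finite.of_surjective _ (Ideal.bijective_algebraMap_quotient_residueField 𝔐).2
  have hcard := Ideal.card_stabilizer_eq
    (G := (SI.kummerExt F p (c : F)) ≃ₐ[F] (SI.kummerExt F p (c : F))) 𝔐 P
  rw [hstab, Subgroup.card_bot,
    Ideal.ramificationIdxIn_eq_ramificationIdx 𝔐 P
      ((SI.kummerExt F p (c : F)) ≃ₐ[F] (SI.kummerExt F p (c : F))),
    Ideal.inertiaDegIn_eq_inertiaDeg 𝔐 P
      ((SI.kummerExt F p (c : F)) ≃ₐ[F] (SI.kummerExt F p (c : F)))] at hcard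
  exact hns P hPp hPu ⟨Nat.eq_one_of_mul_eq_one_right hcard.symm,
    Nat.eq_one_of_mul_eq_one_left hcard.symm⟩

/-- `a^k / b^i`, as an element of `ℚ(ζ_p)`, is not a `p`-th power. -/
theorem not_isPow_u {p : ℕ} (hp : p.Prime) (K : Type*) [Field K] [NumberField K]
    [IsCyclotomicExtension {p} ℚ K] (a b : ℕ) (ha : a.Prime) (hb : b.Prime) (hab : a ≠ b)
    (i k : ℕ) (hi : ¬ p ∣ i) (y : K) : y ^ p ≠ (a : K) ^ k / (b : K) ^ i := by
  intro h
  obtain ⟨r, hr⟩ := rat_isPow_of_isPow_cyclotomic hp K ((a : ℚ) ^ k / (b : ℚ) ^ i) y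
    (by rw [h]; simp)
  exact rat_pow_ne_div a b ha hb hab i k hi r hr

/-- `a / (a^k / b^i)^j`, as an element of `ℚ(ζ_p)`, is not a `p`-th power. -/
theorem not_isPow_a_div {p : ℕ} (hp : p.Prime) (K : Type*) [Field K] [NumberField K]
    [IsCyclotomicExtension {p} ℚ K] (a b : ℕ) (ha : a.Prime) (hb : b.Prime) (hab : a ≠ b)
    (i k : ℕ) (hi : ¬ p ∣ i) (j : ℕ) (y : K) :
    y ^ p ≠ (a : K) / ((a : K) ^ k / (b : K) ^ i) ^ j := by
  intro h
  obtain ⟨r, hr⟩ := rat_isPow_of_isPow_cyclotomic hp K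
    ((a : ℚ) / ((a : ℚ) ^ k / (b : ℚ) ^ i) ^ j) y (by rw [h]; simp)
  exact rat_pow_ne_div_pow hp a b ha hb hab i k hi j r hr

theorem mul_eq_add_mul_pred (i p : ℕ) (hp : 0 < p) : i * p = i + i * (p - 1) := by
  obtain ⟨q, rfl⟩ := Nat.exists_eq_succ_of_ne_zero hp.ne'
  simp [Nat.mul_succ, Nat.add_comm]

/-- A prime `𝔐` of prime norm `m` gives a ring homomorphism `𝓞 F → ZMod m` with kernel `𝔐`. -/
theorem exists_ringHom_zmod {F : Type*} [Field F] [NumberField F] (𝔐 : Ideal (𝓞 F))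
    (hN : (Ideal.absNorm 𝔐).Prime) :
    ∃ φ : 𝓞 F →+* ZMod (Ideal.absNorm 𝔐), ∀ z : 𝓞 F, φ z = 0 ↔ z ∈ 𝔐 := by
  classical
  have hcard : Nat.card (𝓞 F ⧸ 𝔐) = Ideal.absNorm 𝔐 := by
    rw [Ideal.absNorm_apply, Submodule.cardQuot_apply]
  have : Finite (𝓞 F ⧸ 𝔐) := Nat.finite_of_card_ne_zero (by rw [hcard]; exact hN.ne_zero)
  let : Fintype (𝓞 F ⧸ 𝔐) := Fintype.ofFinite _
  have hcard' : Fintype.card (𝓞 F ⧸ 𝔐) = Ideal.absNorm 𝔐 := by
    rw [← Nat.card_eq_fintype_card, hcard]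
  let e : ZMod (Ideal.absNorm 𝔐) ≃+* (𝓞 F ⧸ 𝔐) := ZMod.ringEquivOfPrime _ hN hcard'
  refine ⟨(e.symm : (𝓞 F ⧸ 𝔐) →+* ZMod (Ideal.absNorm 𝔐)).comp (Ideal.Quotient.mk 𝔐), fun z => ?_⟩
  simp only [RingHom.coe_comp, RingHom.coe_coe, Function.comp_apply,
    EmbeddingLike.map_eq_zero_iff, Ideal.Quotient.eq_zero_iff_mem]

/-- If `F ∋ ζ_p` has a prime of prime norm `m > p`, then `m ≡ 1 mod p`. -/
theorem absNorm_mod_eq_one {p : ℕ} (hp : p.Prime) {F : Type*} [Field F] [NumberField F]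
    (ζ : F) (hζ : IsPrimitiveRoot ζ p) (𝔐 : Ideal (𝓞 F)) (hN : (Ideal.absNorm 𝔐).Prime)
    (hlt : p < Ideal.absNorm 𝔐) : Ideal.absNorm 𝔐 % p = 1 := by
  have : NeZero p := ⟨hp.ne_zero⟩
  have := Fact.mk hp
  obtain ⟨φ, -⟩ := exists_ringHom_zmod 𝔐 hN
  set m := Ideal.absNorm 𝔐 with hm
  have : Fact m.Prime := ⟨hN⟩
  have hz := hζ.toInteger_isPrimitiveRoot
  set z := φ hζ.toInteger with hzdef
  have hzp : z ^ p = 1 := by rw [hzdef, ← map_pow, hz.pow_eq_one, map_one]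
  have hz1 : z ≠ 1 := by
    intro h1
    have hsum := congrArg φ (hz.geom_sum_eq_zero hp.one_lt)
    rw [map_sum, map_zero] at hsum
    simp only [map_pow, ← hzdef, h1, one_pow, Finset.sum_const, Finset.card_range,
      nsmul_eq_mul, mul_one] at hsum
    rw [ZMod.natCast_eq_zero_iff] at hsum
    exact absurd (Nat.le_of_dvd hp.pos hsum) (not_le.mpr hlt)
  have hord : orderOf z = p := orderOf_eq_prime hzp hz1
  have hz0 : z ≠ 0 := fun h0 => by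
    rw [h0, zero_pow hp.ne_zero] at hzp; exact zero_ne_one hzp
  have hdvd : p ∣ m - 1 := by
    rw [← hord]
    exact orderOf_dvd_of_pow_eq_one (ZMod.pow_card_sub_one_eq_one hz0)
  obtain ⟨t, ht⟩ := hdvd
  have hm1 : m = p * t + 1 := by have := hN.one_lt; omega
  rw [hm1, Nat.mul_add_mod, Nat.mod_eq_of_lt hp.one_lt]

/-- A natural number `0 < a < m = N𝔐` which is a `p`-th power mod `m` is a local `p`-th power
at `𝔐` with precision `1`. -/
theorem isLocalPow_of_isPow_zmod {p : ℕ} (hp : p.Prime) {F : Type*} [Field F] [NumberField F]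
    (𝔐 : Ideal (𝓞 F)) (hN : (Ideal.absNorm 𝔐).Prime) (a : ℕ) (ha0 : 0 < a)
    (ham : a < Ideal.absNorm 𝔐) (c : Fˣ) (hc : (c : F) = (a : F))
    (hy : ∃ y : ZMod (Ideal.absNorm 𝔐), y ^ p = (a : ZMod (Ideal.absNorm 𝔐))) :
    SI.IsLocalPow p 𝔐 1 c := by
  obtain ⟨φ, hφ⟩ := exists_ringHom_zmod 𝔐 hN
  set m := Ideal.absNorm 𝔐 with hm
  have : Fact m.Prime := ⟨hN⟩
  obtain ⟨y, hy⟩ := hy
  obtain ⟨n, hyn⟩ : ∃ n : ℕ, (n : ZMod m) = y := ⟨y.val, ZMod.natCast_zmod_val y⟩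
  have hmem : (n : 𝓞 F) ^ p - (a : 𝓞 F) ∈ 𝔐 := by
    rw [← hφ, map_sub, map_pow, map_natCast, map_natCast, hyn, hy, sub_self]
  have ha𝔐 : (a : 𝓞 F) ∉ 𝔐 := by
    rw [← hφ, map_natCast, ZMod.natCast_eq_zero_iff]
    exact fun h => absurd (Nat.le_of_dvd ha0 h) (not_le.mpr ham)
  have hn𝔐 : (n : 𝓞 F) ^ p ∉ 𝔐 := fun h => ha𝔐 (by simpa using 𝔐.sub_mem h hmem)
  have hn0 : (n : F) ≠ 0 := by
    intro h0
    apply hn𝔐
    have hn00 : n = 0 := by exact_mod_cast h0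
    rw [hn00, Nat.cast_zero, zero_pow hp.ne_zero]
    exact 𝔐.zero_mem
  refine ⟨Units.mk0 _ hn0, (a : 𝓞 F), (n : 𝓞 F) ^ p, ha𝔐, hn𝔐, ?_, ?_⟩
  · rw [pow_one]
    simpa using 𝔐.neg_mem hmem
  · simp only [Units.val_div_eq_div_val, Units.val_pow_eq_pow_val, Units.val_mk0, hc]
    push_cast
    rw [div_mul_cancel₀ _ (pow_ne_zero _ hn0)]

/-- **RC-aux**: the auxiliary prime `m` of `crossing_step`. -/
theorem exists_aux_prime {p : ℕ} (hp : p.Prime) (hp2 : p ≠ 2) (K : Type*) [Field K]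
    [NumberField K] [IsCyclotomicExtension {p} ℚ K] (a b : ℕ) (ha : a.Prime) (hb : b.Prime)
    (hab : a ≠ b) (i k : ℕ) (hi : ¬ p ∣ i) (B : Finset ℕ) :
    ∃ m : ℕ, m.Prime ∧ m % p = 1 ∧ m ∉ B ∧ m ≠ p ∧ m ≠ a ∧ m ≠ b ∧
      (¬ ∃ y : ZMod m, y ^ p = (a : ZMod m)) ∧
      ∃ y : ZMod m, (a : ZMod m) ^ k = (b : ZMod m) ^ i * y ^ p := by
  classical
  have : NeZero p := ⟨hp.ne_zero⟩
  have hζ : IsPrimitiveRoot (IsCyclotomicExtension.zeta p ℚ K) p :=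
    IsCyclotomicExtension.zeta_spec p ℚ K
  have ha0 : (a : K) ≠ 0 := Nat.cast_ne_zero.mpr ha.ne_zero
  have hb0 : (b : K) ≠ 0 := Nat.cast_ne_zero.mpr hb.ne_zero
  obtain ⟨u, hu_def⟩ : ∃ u : Kˣ, (u : K) = (a : K) ^ k / (b : K) ^ i :=
    ⟨Units.mk0 _ (div_ne_zero (pow_ne_zero _ ha0) (pow_ne_zero _ hb0)), rfl⟩
  have hu : ∀ y : K, y ^ p ≠ (u : K) := fun y => by
    rw [hu_def]; exact not_isPow_u hp K a b ha hb hab i k hi y
  have : IsGalois K (SI.kummerExt K p (u : K)) := SI.kummerExt_isGalois hp _ hζ u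
  have hdeg1 : Module.finrank K (SI.kummerExt K p (u : K)) = p :=
    SI.finrank_kummerExt hp _ hζ u hu
  obtain ⟨β₁, hβ₁⟩ : ∃ β₁ : SI.kummerExt K p (u : K),
      β₁ ^ p = algebraMap K (SI.kummerExt K p (u : K)) (u : K) :=
    ⟨rootOfSplitsXPowSubC (NeZero.pos p) (u : K) (SI.kummerExt K p (u : K)),
      rootOfSplitsXPowSubC_pow _ _⟩
  have hζ1 : IsPrimitiveRoot
      (algebraMap K (SI.kummerExt K p (u : K)) (IsCyclotomicExtension.zeta p ℚ K)) p :=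
    hζ.map_of_injective (algebraMap K _).injective
  obtain ⟨aK, haK⟩ : ∃ aK : Kˣ, (aK : K) = (a : K) := ⟨Units.mk0 _ ha0, rfl⟩
  obtain ⟨a1, ha1_def⟩ : ∃ a1 : (SI.kummerExt K p (u : K))ˣ,
      (a1 : SI.kummerExt K p (u : K)) = (a : SI.kummerExt K p (u : K)) :=
    ⟨Units.mk0 _ (Nat.cast_ne_zero.mpr ha.ne_zero), rfl⟩
  have ha1 : ∀ y : SI.kummerExt K p (u : K), y ^ p ≠ (a1 : SI.kummerExt K p (u : K)) := by
    intro y hy
    obtain ⟨j, y', hjy⟩ := SI.eq_pow_mul_pow_of_isPow_top hp _ hζ hdeg1 u β₁ hβ₁ hu aK y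
      (by rw [hy, ha1_def, haK, map_natCast])
    have h := congrArg (fun t : Kˣ => (t : K)) hjy
    simp only [Units.val_mul, Units.val_pow_eq_pow_val, haK, hu_def] at h
    refine not_isPow_a_div hp K a b ha hb hab i k hi j (y' : K) ?_
    rw [eq_div_iff (pow_ne_zero _ (div_ne_zero (pow_ne_zero _ ha0) (pow_ne_zero _ hb0))),
      mul_comm]
    exact h.symm
  obtain ⟨𝔐, h𝔐p, h𝔐0, h𝔐N, h𝔐lt, hnl⟩ := exists_degOne_prime_not_isLocalPow hp hp2 _ hζ1 a1 ha1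
    (max (B.sup id) (max p (max a b)))
  have hmB : B.sup id < Ideal.absNorm 𝔐 := lt_of_le_of_lt (le_max_left _ _) h𝔐lt
  have hmp : p < Ideal.absNorm 𝔐 :=
    lt_of_le_of_lt ((le_max_left _ _).trans (le_max_right _ _)) h𝔐lt
  have hma : a < Ideal.absNorm 𝔐 :=
    lt_of_le_of_lt ((le_max_left _ _).trans ((le_max_right _ _).trans (le_max_right _ _))) h𝔐lt
  have hmb : b < Ideal.absNorm 𝔐 :=
    lt_of_le_of_lt ((le_max_right _ _).trans ((le_max_right _ _).trans (le_max_right _ _))) h𝔐lt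
  refine ⟨Ideal.absNorm 𝔐, h𝔐N, absNorm_mod_eq_one hp _ hζ1 𝔐 h𝔐N hmp, fun hmem => ?_,
    ne_of_gt hmp, ne_of_gt hma, ne_of_gt hmb,
    fun hy => hnl (isLocalPow_of_isPow_zmod hp 𝔐 h𝔐N a ha.pos hma a1 ha1_def hy), ?_⟩
  · exact absurd (Finset.le_sup (f := id) hmem) (not_le.mpr hmB)
  · -- `a^k / b^i` is a `p`-th power mod `m`
    obtain ⟨φ, hφ⟩ := exists_ringHom_zmod 𝔐 h𝔐N
    set m := Ideal.absNorm 𝔐 with hm
    have : Fact m.Prime := ⟨h𝔐N⟩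
    have hb1 : (b : SI.kummerExt K p (u : K)) ≠ 0 := Nat.cast_ne_zero.mpr hb.ne_zero
    have hγp : ((b : SI.kummerExt K p (u : K)) ^ i * β₁) ^ p =
        ((a ^ k * b ^ (i * (p - 1)) : ℕ) : SI.kummerExt K p (u : K)) := by
      have hu1 := congrArg (algebraMap K (SI.kummerExt K p (u : K))) hu_def
      rw [map_div₀, map_pow, map_pow, map_natCast, map_natCast] at hu1
      rw [mul_pow, hβ₁, hu1]
      push_cast
      rw [← pow_mul, mul_eq_add_mul_pred i p hp.pos, pow_add]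
      field_simp
    have hγint : IsIntegral ℤ ((b : SI.kummerExt K p (u : K)) ^ i * β₁) :=
      IsIntegral.of_pow hp.pos (by rw [hγp]; exact isIntegral_natCast _)
    set γ : 𝓞 (SI.kummerExt K p (u : K)) := ⟨_, hγint⟩ with hγdef
    have hγ : γ ^ p = ((a ^ k * b ^ (i * (p - 1)) : ℕ) : 𝓞 (SI.kummerExt K p (u : K))) := by
      apply RingOfIntegers.coe_injective
      simpa [hγdef] using hγp
    have hφγ := congrArg φ hγ
    rw [map_pow, map_natCast] at hφγ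
    have hbm : (b : ZMod m) ≠ 0 := by
      rw [Ne, ZMod.natCast_eq_zero_iff]
      exact fun h => absurd (Nat.le_of_dvd hb.pos h) (not_le.mpr hmb)
    refine ⟨φ γ * ((b : ZMod m) ^ i)⁻¹, ?_⟩
    rw [mul_pow, hφγ]
    push_cast
    rw [inv_pow, ← pow_mul, mul_eq_add_mul_pred i p hp.pos, pow_add]
    field_simp

/-- One-element variant: a prime `m ≡ 1 mod p` outside `B` modulo which the prime `a` is not a
`p`-th power. -/
theorem exists_aux_prime_single {p : ℕ} (hp : p.Prime) (hp2 : p ≠ 2) (K : Type*) [Field K]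
    [NumberField K] [IsCyclotomicExtension {p} ℚ K] (a : ℕ) (ha : a.Prime) (B : Finset ℕ) :
    ∃ m : ℕ, m.Prime ∧ m % p = 1 ∧ m ∉ B ∧ m ≠ p ∧ m ≠ a ∧
      ¬ ∃ y : ZMod m, y ^ p = (a : ZMod m) := by
  classical
  have : NeZero p := ⟨hp.ne_zero⟩
  have hζ : IsPrimitiveRoot (IsCyclotomicExtension.zeta p ℚ K) p :=
    IsCyclotomicExtension.zeta_spec p ℚ K
  have ha0 : (a : K) ≠ 0 := Nat.cast_ne_zero.mpr ha.ne_zero
  obtain ⟨b, hb, hab⟩ : ∃ b : ℕ, b.Prime ∧ a ≠ b := by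
    by_cases h2 : a = 2
    · exact ⟨3, Nat.prime_three, by omega⟩
    · exact ⟨2, Nat.prime_two, h2⟩
  obtain ⟨aK, haK⟩ : ∃ aK : Kˣ, (aK : K) = (a : K) := ⟨Units.mk0 _ ha0, rfl⟩
  have haK' : ∀ y : K, y ^ p ≠ (aK : K) := by
    intro y hy
    have h1 : ¬ p ∣ 1 := fun h => hp.one_lt.ne' (Nat.dvd_one.mp h)
    refine not_isPow_a_div hp K a b ha hb hab 1 0 h1 0 y ?_
    rw [hy, haK]
    simp
  obtain ⟨𝔐, h𝔐p, h𝔐0, h𝔐N, h𝔐lt, hnl⟩ := exists_degOne_prime_not_isLocalPow hp hp2 _ hζ aK haK'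
    (max (B.sup id) (max p a))
  have hmB : B.sup id < Ideal.absNorm 𝔐 := lt_of_le_of_lt (le_max_left _ _) h𝔐lt
  have hmp : p < Ideal.absNorm 𝔐 :=
    lt_of_le_of_lt ((le_max_left _ _).trans (le_max_right _ _)) h𝔐lt
  have hma : a < Ideal.absNorm 𝔐 :=
    lt_of_le_of_lt ((le_max_right _ _).trans (le_max_right _ _)) h𝔐lt
  exact ⟨Ideal.absNorm 𝔐, h𝔐N, absNorm_mod_eq_one hp _ hζ 𝔐 h𝔐N hmp,
    fun hmem => absurd (Finset.le_sup (f := id) hmem) (not_le.mpr hmB),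
    ne_of_gt hmp, ne_of_gt hma,
    fun hy => hnl (isLocalPow_of_isPow_zmod hp 𝔐 h𝔐N a ha.pos hma aK haK hy)⟩

end AuxPrime

end Fermat.Agent.S14
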