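/-
T14 / RC (0): in the CAT setting a prime of `K` with nontrivial Frobenius has prime norm `q ≠ p`,
`q ≡ 1 mod p`.
-/
import Fermat.Agent.S14.RC.Setup
import Fermat.Agent.S14.Artin

set_option autoImplicit false
set_option linter.unusedSectionVars false
set_option linter.style.haveILetI false
set_option linter.unusedVariables false

open NumberField nonZeroDivisors
open scoped Pointwise

namespace Fermat.Agent.S14.RC

variable {p : ℕ} {L : Type} [Field L] [NumberField L] {K : IntermediateField ℚ L}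

/-- the cardinality of `ℤ ⧸ (𝔔 ∩ ℤ)` is the rational prime below `𝔔`. -/
theorem card_int_quot (𝔔 : Ideal (𝓞 L)) :
    Nat.card (ℤ ⧸ 𝔔.under ℤ) = Ideal.absNorm (𝔔.under ℤ) := by
  rw [Ideal.absNorm_apply, Submodule.cardQuot_apply]

theorem natCast_mem_iff_of_prime (𝔔 : Ideal (𝓞 L)) [𝔔.IsPrime] (h𝔔 : 𝔔 ≠ ⊥) (n : ℕ) :
    (n : 𝓞 L) ∈ 𝔔 ↔ Ideal.absNorm (𝔔.under ℤ) ∣ n := by
  haveI : NeZero 𝔔 := ⟨h𝔔⟩
  set q := Ideal.absNorm (𝔔.under ℤ) with hq
  have hqmem : ((q : ℤ)) ∈ 𝔔.under ℤ := Ideal.absNorm_mem _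
  constructor
  · intro hn
    have hn' : ((n : ℤ)) ∈ 𝔔.under ℤ := by
      rw [Ideal.under_def, Ideal.mem_comap]
      simpa using hn
    have hspan : 𝔔.under ℤ = Ideal.span {(q : ℤ)} := by
      rw [hq]
      exact (Int.ideal_span_absNorm_eq_self _).symm
    rw [hspan, Ideal.mem_span_singleton] at hn'
    exact_mod_cast hn'
  · rintro ⟨k, rfl⟩
    have h1 : ((q : ℕ) : 𝓞 L) ∈ 𝔔 := by
      have := Int.absNorm_under_mem 𝔔
      simpa using this
    push_cast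
    exact Ideal.mul_mem_right _ _ h1


/-- In the CAT setting, a nonzero prime `𝔮` of `K` with nontrivial Frobenius in `L/K` has absolute
norm a prime `q ≠ p` with `q ≡ 1 mod p`. -/
theorem absNorm_prime_of_frobAt_ne_one (h : CATSetting p L K) [IsGalois K L]
    (𝔮 : Ideal (𝓞 K)) [𝔮.IsPrime] (h𝔮 : 𝔮 ≠ ⊥) (hF : frobAt K L 𝔮 ≠ 1) :
    ∃ q : ℕ, q.Prime ∧ q ≠ p ∧ q % p = 1 ∧ Ideal.absNorm 𝔮 = q := by
  haveI := h.galois
  haveI := isAbelianGalois h
  haveI := h.cyclo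
  have hpp := h.prime
  -- a prime of `L` above `𝔮`
  obtain ⟨⟨𝔔, h𝔔p, h𝔔o⟩⟩ := 𝔮.nonempty_primesOver (S := 𝓞 L)
  haveI := h𝔔p
  have hunder : 𝔔.under (𝓞 K) = 𝔮 := h𝔔o.over.symm
  have h𝔔 : 𝔔 ≠ ⊥ := by
    rintro rfl
    apply h𝔮
    rw [← hunder]
    exact Ideal.under_bot (𝓞 K) (𝓞 L)
  haveI : NeZero 𝔔 := ⟨h𝔔⟩
  haveI : Finite (𝓞 L ⧸ 𝔔) := Ideal.finiteQuotientOfFreeOfNeBot _ h𝔔
  set τ := frobAt K L 𝔮 with hτdef
  have hτ : IsArithFrobAt (𝓞 K) τ 𝔔 := by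
    have := frobAt_isArithFrobAt K L h.unram 𝔔 h𝔔
    rwa [hunder] at this
  -- the rational prime below
  set q := Ideal.absNorm (𝔔.under ℤ) with hqdef
  have hq : q.Prime := Nat.absNorm_under_prime 𝔔
  have hqp : q ≠ p := by
    intro hqp
    apply hF
    have hpmem : (p : 𝓞 L) ∈ 𝔔 := (natCast_mem_iff_of_prime 𝔔 h𝔔 p).2 (by rw [← hqdef, hqp])
    refine h.split_p 𝔔 inferInstance hpmem τ fun x hx => ?_
    have hstab := hτ.mem_stabilizer
    rw [MulAction.mem_stabilizer_iff] at hstab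
    rw [← hstab]
    exact Ideal.smul_mem_pointwise_smul _ _ _ hx
  have hpnot : (p : 𝓞 L) ∉ 𝔔 := by
    intro hmem
    have hdvd := (natCast_mem_iff_of_prime 𝔔 h𝔔 p).1 hmem
    exact hqp ((Nat.prime_dvd_prime_iff_eq hq hpp).1 hdvd)
  -- Frobenius over ℤ
  obtain ⟨g, hg⟩ := IsArithFrobAt.exists_of_isInvariant ℤ (L ≃ₐ[ℚ] L) 𝔔
  have hcard : Nat.card (ℤ ⧸ 𝔔.under ℤ) = q := card_int_quot 𝔔
  have hgstab : g • 𝔔 = 𝔔 := MulAction.mem_stabilizer_iff.mp hg.mem_stabilizer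
  have hginv : g⁻¹ • 𝔔 = 𝔔 := by
    conv_lhs => rw [← hgstab]
    rw [inv_smul_smul]
  -- a primitive `p`-th root of unity
  obtain ⟨ζK, hζK⟩ := IsCyclotomicExtension.exists_isPrimitiveRoot ℚ K (S := {p}) rfl hpp.ne_zero
  have hζ : IsPrimitiveRoot ((ζK : K) : L) p := hζK.map_of_injective (algebraMap K L).injective
  haveI : NeZero p := ⟨hpp.ne_zero⟩
  have hζint : (hζ.toInteger : L) = ((ζK : K) : L) := hζ.coe_toInteger
  have hgζ : g ((ζK : K) : L) = ((ζK : K) : L) ^ q := by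
    have h1 : (hζ.toInteger) ^ p = 1 := by
      apply Subtype.ext
      change (hζ.toInteger : L) ^ p = 1
      rw [hζint]
      exact hζ.pow_eq_one
    have := AlgHom.IsArithFrobAt.apply_of_pow_eq_one hg h1 hpnot
    rw [hcard] at this
    have h2 := congrArg (fun y : 𝓞 L => (y : L)) this
    change g (hζ.toInteger : L) = (hζ.toInteger : L) ^ q at h2
    rwa [hζint] at h2
  have hact := h.act g τ _ q hζ hgζ
  -- `τ ^ q` is again a Frobenius at `𝔔`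
  have hτq : IsArithFrobAt (𝓞 K) (τ ^ q) 𝔔 := by
    intro x
    have hx : (τ ^ q) • x = g⁻¹ • (τ • (g • x)) := by
      apply Subtype.ext
      change (τ ^ q) (x : L) = g⁻¹ (τ (g (x : L)))
      have h3 : ((τ ^ q).restrictScalars ℚ) (x : L) = (g⁻¹ * τ.restrictScalars ℚ * g) (x : L) := by
        rw [hact]
        rw [show (τ ^ q).restrictScalars ℚ = (τ.restrictScalars ℚ) ^ q from
          map_pow (AlgEquiv.restrictScalarsHom ℚ) τ q]
      exact h3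
    have h4 := hτ (g • x)
    have h5 : g⁻¹ • ((MulSemiringAction.toAlgHom (𝓞 K) (𝓞 L) τ) (g • x) -
        (g • x) ^ Nat.card (𝓞 K ⧸ 𝔔.under (𝓞 K))) ∈ g⁻¹ • 𝔔 :=
      Ideal.smul_mem_pointwise_smul _ _ _ h4
    rw [hginv] at h5
    have h6 : (MulSemiringAction.toAlgHom (𝓞 K) (𝓞 L) (τ ^ q)) x -
        x ^ Nat.card (𝓞 K ⧸ 𝔔.under (𝓞 K)) =
        g⁻¹ • ((MulSemiringAction.toAlgHom (𝓞 K) (𝓞 L) τ) (g • x) -
        (g • x) ^ Nat.card (𝓞 K ⧸ 𝔔.under (𝓞 K))) := by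
      rw [smul_sub, smul_pow', inv_smul_smul]
      change (τ ^ q) • x - _ = g⁻¹ • (τ • (g • x)) - _
      rw [hx]
    rw [h6]
    exact h5
  have hτq' : τ ^ q = τ := by
    have := eq_frobAt_of_isArithFrobAt K L h.unram 𝔔 h𝔔 (τ ^ q) hτq
    rw [hunder] at this
    exact this
  -- hence `p ∣ q - 1`
  have hq1 : τ ^ (q - 1) = 1 := by
    have h7 : τ ^ (q - 1) * τ = 1 * τ := by
      rw [← pow_succ, Nat.sub_add_cancel hq.one_lt.le, one_mul, hτq']
    exact mul_right_cancel h7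
  have hord : orderOf τ = p := by
    have h8 : orderOf τ ∣ p := orderOf_dvd_of_pow_eq_one (pow_p_eq_one h τ)
    rcases (Nat.dvd_prime hpp).1 h8 with h9 | h9
    · exact absurd (orderOf_eq_one_iff.1 h9) hF
    · exact h9
  have hpq : p ∣ q - 1 := by
    rw [← hord]
    exact orderOf_dvd_of_pow_eq_one hq1
  have hqmod : q % p = 1 := by
    obtain ⟨k, hk⟩ := hpq
    have hq' : q = p * k + 1 := by have := hq.one_lt; omega
    rw [hq', Nat.mul_add_mod]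
    exact Nat.mod_eq_of_lt hpp.one_lt
  refine ⟨q, hq, hqp, hqmod, ?_⟩
  -- `g` fixes `ζ`, hence `K`
  have hgζ' : g ((ζK : K) : L) = ((ζK : K) : L) := by
    rw [hgζ]
    obtain ⟨k, hk⟩ := hpq
    have hq' : q = p * k + 1 := by have := hq.one_lt; omega
    rw [hq', pow_succ, pow_mul, hζ.pow_eq_one, one_pow, one_mul]
  have hgK : ∀ x : K, g (x : L) = (x : L) := by
    intro x
    have hext : ((g : L →ₐ[ℚ] L).comp K.val) = K.val := by
      apply (hζK.powerBasis ℚ).algHom_ext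
      rw [IsPrimitiveRoot.powerBasis_gen]
      exact hgζ'
    exact DFunLike.congr_fun hext x
  -- every `x ∈ 𝓞 K` satisfies `x ^ q ≡ x mod 𝔮`
  have hfrob : ∀ x : 𝓞 K, x ^ q - x ∈ 𝔮 := by
    intro x
    have h10 := hg (algebraMap (𝓞 K) (𝓞 L) x)
    rw [hcard] at h10
    have h11 : (MulSemiringAction.toAlgHom ℤ (𝓞 L) g) (algebraMap (𝓞 K) (𝓞 L) x) =
        algebraMap (𝓞 K) (𝓞 L) x := by
      apply Subtype.ext
      exact hgK (x : K)
    rw [h11] at h10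
    rw [← hunder, Ideal.under_def, Ideal.mem_comap, map_sub, map_pow]
    have := 𝔔.neg_mem h10
    simpa using this
  -- count the residue field
  haveI : 𝔮.IsMaximal := Ideal.IsPrime.isMaximal inferInstance h𝔮
  letI : Field (𝓞 K ⧸ 𝔮) := Ideal.Quotient.field 𝔮
  haveI : Finite (𝓞 K ⧸ 𝔮) := Ideal.finiteQuotientOfFreeOfNeBot _ h𝔮
  letI : Fintype (𝓞 K ⧸ 𝔮) := Fintype.ofFinite _
  have hle : Fintype.card (𝓞 K ⧸ 𝔮) ≤ q := by
    classical
    have hpoly : (Polynomial.X ^ q - Polynomial.X : Polynomial (𝓞 K ⧸ 𝔮)) ≠ 0 :=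
      FiniteField.X_pow_card_sub_X_ne_zero _ hq.one_lt
    have hsub : (Finset.univ : Finset (𝓞 K ⧸ 𝔮)) ⊆
        (Polynomial.X ^ q - Polynomial.X : Polynomial (𝓞 K ⧸ 𝔮)).roots.toFinset := by
      intro y _
      obtain ⟨x, rfl⟩ := Ideal.Quotient.mk_surjective y
      rw [Multiset.mem_toFinset, Polynomial.mem_roots hpoly]
      simp only [Polynomial.IsRoot.def, Polynomial.eval_sub, Polynomial.eval_pow,
        Polynomial.eval_X]
      rw [← map_pow, ← map_sub, Ideal.Quotient.eq_zero_iff_mem]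
      exact hfrob x
    calc Fintype.card (𝓞 K ⧸ 𝔮) = (Finset.univ : Finset (𝓞 K ⧸ 𝔮)).card := rfl
      _ ≤ (Polynomial.X ^ q - Polynomial.X : Polynomial (𝓞 K ⧸ 𝔮)).roots.toFinset.card :=
          Finset.card_le_card hsub
      _ ≤ Multiset.card (Polynomial.X ^ q - Polynomial.X : Polynomial (𝓞 K ⧸ 𝔮)).roots :=
          Multiset.toFinset_card_le _
      _ ≤ (Polynomial.X ^ q - Polynomial.X : Polynomial (𝓞 K ⧸ 𝔮)).natDegree :=
          Polynomial.card_roots' _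
      _ = q := FiniteField.X_pow_card_sub_X_natDegree_eq _ hq.one_lt
  have hge : q ≤ Fintype.card (𝓞 K ⧸ 𝔮) := by
    haveI : CharP (𝓞 K ⧸ 𝔮) q := by
      have hq0 : ((q : ℕ) : 𝓞 K ⧸ 𝔮) = 0 := by
        have h12 : ((q : ℕ) : 𝓞 K) ∈ 𝔮 := by
          rw [← hunder, Ideal.under_def, Ideal.mem_comap, map_natCast]
          exact (natCast_mem_iff_of_prime 𝔔 h𝔔 q).2 dvd_rfl
        rw [← map_natCast (Ideal.Quotient.mk 𝔮), Ideal.Quotient.eq_zero_iff_mem]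
        exact h12
      haveI : Fact q.Prime := ⟨hq⟩
      exact (CharP.charP_iff_prime_eq_zero hq).2 hq0
    obtain ⟨n, _, hn⟩ := FiniteField.card (𝓞 K ⧸ 𝔮) q
    rw [hn]
    calc q = q ^ 1 := (pow_one q).symm
      _ ≤ q ^ (n : ℕ) := Nat.pow_le_pow_right hq.pos n.pos
  rw [Ideal.absNorm_apply, Submodule.cardQuot_apply, Nat.card_eq_fintype_card]
  exact le_antisymm hle hge

end Fermat.Agent.S14.RC
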