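/-
T14 / RC step (0): in the CAT setting a prime of `K` with nontrivial Frobenius in `L/K` has
prime absolute norm `q ≠ p`, `q ≡ 1 mod p`.

Proof.  `P` a prime of `L`, `τ ∈ Gal(L/K)` a Frobenius at `P` over `𝓞 K`, `τ ≠ 1`.  `P ∤ p` by
`CATSetting.split_p`.  Let `g ∈ Gal(L/ℚ)` be a Frobenius at `P` over `ℤ` and `q₀` the rational prime
under `P`; `g ζ = ζ ^ q₀`.  By `CATSetting.act`, `g⁻¹ τ g = τ ^ q₀`, which is again a Frobenius at `P`
over `𝓞 K`; by unramifiedness `τ ^ q₀ = τ`, so `p ∣ q₀ - 1`, `g` fixes `ζ` hence `K`, hence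
`x ^ q₀ ≡ x mod 𝔮` for all `x ∈ 𝓞 K` and `N𝔮 = q₀`.
-/
import Fermat.Agent.S14.Defs

set_option autoImplicit false

open NumberField nonZeroDivisors

namespace Fermat.Agent.S14

namespace FrobNorm

variable {p : ℕ} {L : Type} [Field L] [NumberField L] {K : IntermediateField ℚ L}

lemma coe_smul_rat (g : L ≃ₐ[ℚ] L) (x : 𝓞 L) : ((g • x : 𝓞 L) : L) = g (x : L) := rfl

lemma coe_smul_K (g : L ≃ₐ[K] L) (x : 𝓞 L) : ((g • x : 𝓞 L) : L) = g (x : L) := rfl

/-- a finite domain all of whose elements satisfy `x ^ q = x` has at most `q` elements -/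
lemma card_le_of_forall_pow_eq {κ : Type*} [CommRing κ] [IsDomain κ] [Finite κ] {q : ℕ} (hq : 1 < q)
    (h : ∀ x : κ, x ^ q = x) : Nat.card κ ≤ q := by
  classical
  have := Fintype.ofFinite κ
  have hdeg : (Polynomial.X ^ q - Polynomial.X : Polynomial κ).natDegree = q := by
    rw [Polynomial.natDegree_sub_eq_left_of_natDegree_lt, Polynomial.natDegree_X_pow]
    rw [Polynomial.natDegree_X_pow, Polynomial.natDegree_X]
    exact hq
  have hne : (Polynomial.X ^ q - Polynomial.X : Polynomial κ) ≠ 0 :=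
    Polynomial.ne_zero_of_natDegree_gt (n := 0) (by omega)
  have hsub : (Finset.univ : Finset κ) ⊆ (Polynomial.X ^ q - Polynomial.X : Polynomial κ).roots.toFinset := by
    intro x _
    rw [Multiset.mem_toFinset, Polynomial.mem_roots hne]
    simp [h x]
  calc Nat.card κ = (Finset.univ : Finset κ).card := by
        rw [Nat.card_eq_fintype_card, Finset.card_univ]
    _ ≤ (Polynomial.X ^ q - Polynomial.X : Polynomial κ).roots.toFinset.card := Finset.card_le_card hsub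
    _ ≤ Multiset.card (Polynomial.X ^ q - Polynomial.X : Polynomial κ).roots := Multiset.toFinset_card_le _
    _ ≤ (Polynomial.X ^ q - Polynomial.X : Polynomial κ).natDegree := Polynomial.card_roots' _
    _ = q := hdeg

/-- a primitive `p`-th root of unity of `K`, viewed in `𝓞 L` -/
lemma exists_zeta (h : CATSetting p L K) :
    ∃ ζ : 𝓞 L, IsPrimitiveRoot (ζ : L) p ∧ ζ ^ p = 1 ∧
      ∀ g : L ≃ₐ[ℚ] L, g (ζ : L) = (ζ : L) → ∀ k : K, g (k : L) = (k : L) := by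
  have := h.cyclo
  have : NeZero p := ⟨h.prime.ne_zero⟩
  obtain ⟨r, hr⟩ := IsCyclotomicExtension.exists_isPrimitiveRoot ℚ K (Set.mem_singleton p)
    h.prime.ne_zero
  have hrL : IsPrimitiveRoot ((r : K) : L) p := hr.map_of_injective (algebraMap K L).injective
  have hint : IsIntegral ℤ ((r : K) : L) := by
    refine ⟨Polynomial.X ^ p - 1, Polynomial.monic_X_pow_sub_C 1 h.prime.ne_zero, ?_⟩
    simp [hrL.pow_eq_one]
  refine ⟨⟨(r : L), hint⟩, hrL, ?_, ?_⟩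
  · apply RingOfIntegers.ext
    show ((r : K) : L) ^ p = 1
    exact hrL.pow_eq_one
  · intro g hg k
    have htop := IsCyclotomicExtension.adjoin_primitive_root_eq_top (A := ℚ) hr
    have : (g : L →ₐ[ℚ] L).comp K.val = K.val := by
      apply AlgHom.ext_of_adjoin_eq_top htop
      intro x hx
      rw [Set.mem_singleton_iff] at hx
      subst hx
      exact hg
    exact DFunLike.congr_fun this k

open scoped Pointwise in
/-- Stage A: a Frobenius at a prime above `p` is trivial. -/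
lemma natCast_not_mem (h : CATSetting p L K) [IsGalois K L]
    (P : Ideal (𝓞 L)) [P.IsPrime] (τ : L ≃ₐ[K] L)
    (hτ : IsArithFrobAt (𝓞 K) τ P) (hτ1 : τ ≠ 1) : (p : 𝓞 L) ∉ P := by
  intro hp
  apply hτ1
  refine h.split_p P inferInstance hp τ ?_
  intro x hx
  have hst : τ • P = P := hτ.mem_stabilizer
  rw [← hst]
  exact Ideal.smul_mem_pointwise_smul _ _ _ hx

lemma restrictScalars_pow_apply (τ : L ≃ₐ[K] L) (n : ℕ) (y : L) :
    (AlgEquiv.restrictScalars ℚ τ ^ n) y = (τ ^ n) y := by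
  induction n generalizing y with
  | zero => rfl
  | succ n ih =>
    rw [pow_succ, pow_succ, AlgEquiv.mul_apply, AlgEquiv.mul_apply, ih]
    rfl

open scoped Pointwise in
/-- Stage D: `τ ^ (q₀ - 1) = 1`, where `q₀` is the rational prime under `P`. -/
lemma pow_eq_self (h : CATSetting p L K) [IsGalois K L]
    (P : Ideal (𝓞 L)) [P.IsPrime] (hP : P ≠ ⊥) (τ : L ≃ₐ[K] L)
    (hτ : IsArithFrobAt (𝓞 K) τ P) (hp : (p : 𝓞 L) ∉ P)
    (g : L ≃ₐ[ℚ] L) (hg : IsArithFrobAt ℤ g P) (ζ : 𝓞 L) (hζ : IsPrimitiveRoot (ζ : L) p)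
    (hζ1 : ζ ^ p = 1) :
    g (ζ : L) = (ζ : L) ^ Nat.card (ℤ ⧸ P.under ℤ) ∧ τ ^ Nat.card (ℤ ⧸ P.under ℤ) = τ := by
  set q₀ := Nat.card (ℤ ⧸ P.under ℤ) with hq₀
  have h1 : g • ζ = ζ ^ q₀ := AlgHom.IsArithFrobAt.apply_of_pow_eq_one hg hζ1 hp
  have h1L : g (ζ : L) = (ζ : L) ^ q₀ := by
    have := congrArg (fun z : 𝓞 L => (z : L)) h1
    simpa [coe_smul_rat] using this
  refine ⟨h1L, ?_⟩
  have hact := h.act g τ (ζ : L) q₀ hζ h1L
  -- τ ^ q₀ is a Frobenius at P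
  have hgst : g⁻¹ • P = P := by
    have : g ∈ MulAction.stabilizer (L ≃ₐ[ℚ] L) P := hg.mem_stabilizer
    exact (MulAction.stabilizer (L ≃ₐ[ℚ] L) P).inv_mem this
  have hF : IsArithFrobAt (𝓞 K) (τ ^ q₀) P := by
    intro x
    have hx := hτ (g • x)
    have h2 : g⁻¹ • ((MulSemiringAction.toAlgHom (𝓞 K) (𝓞 L) τ) (g • x) -
        (g • x) ^ Nat.card (𝓞 K ⧸ P.under (𝓞 K))) ∈ g⁻¹ • P :=
      Ideal.smul_mem_pointwise_smul _ _ _ hx
    rw [hgst] at h2
    convert h2 using 1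
    rw [smul_sub, smul_pow', inv_smul_smul]
    congr 1
    apply RingOfIntegers.ext
    have h3 := congrArg (fun s : L ≃ₐ[ℚ] L => s (x : L)) hact
    simp only [AlgEquiv.mul_apply] at h3
    show (τ ^ q₀) (x : L) = g⁻¹ (τ (g (x : L)))
    rw [← restrictScalars_pow_apply, ← h3]
    rfl
  have hin : ∀ x : 𝓞 L, (τ ^ q₀ * τ⁻¹) • x - x ∈ P := by
    have := IsArithFrobAt.mul_inv_mem_inertia hF hτ
    exact this
  have := h.unram P inferInstance hP (τ ^ q₀ * τ⁻¹) hin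
  exact mul_inv_eq_one.mp this

theorem main (h : CATSetting p L K) [IsGalois K L]
    (P : Ideal (𝓞 L)) [P.IsPrime] (hP : P ≠ ⊥) (τ : L ≃ₐ[K] L)
    (hτ : IsArithFrobAt (𝓞 K) τ P) (hτ1 : τ ≠ 1) :
    (Ideal.absNorm (P.under (𝓞 K))).Prime ∧ Ideal.absNorm (P.under (𝓞 K)) ≠ p ∧
      Ideal.absNorm (P.under (𝓞 K)) % p = 1 := by
  have hp := natCast_not_mem h P τ hτ hτ1
  have : Finite (𝓞 L ⧸ P) := Ideal.finiteQuotientOfFreeOfNeBot _ hP
  have := h.galois
  have : NeZero P := ⟨hP⟩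
  have : Fact p.Prime := ⟨h.prime⟩
  obtain ⟨g, hg⟩ := IsArithFrobAt.exists_of_isInvariant ℤ (L ≃ₐ[ℚ] L) P
  obtain ⟨ζ, hζ, hζ1, hfix⟩ := exists_zeta h
  obtain ⟨h1L, hpow⟩ := pow_eq_self h P hP τ hτ hp g hg ζ hζ hζ1
  have hq₀ : Nat.card (ℤ ⧸ P.under ℤ) = Ideal.absNorm (P.under ℤ) := by
    rw [Ideal.absNorm_apply, Submodule.cardQuot_apply]
  set q₀ := Nat.card (ℤ ⧸ P.under ℤ) with hq₀def
  have hq₀prime : q₀.Prime := hq₀ ▸ Nat.absNorm_under_prime P
  -- τ ^ (q₀ - 1) = 1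
  have hpow1 : τ ^ (q₀ - 1) = 1 := by
    have h2 : τ ^ (q₀ - 1) * τ = 1 * τ := by
      rw [← pow_succ, Nat.sub_add_cancel hq₀prime.one_le, hpow, one_mul]
    exact mul_right_cancel h2
  have hcard : Nat.card (L ≃ₐ[K] L) = p := by
    rw [IsGalois.card_aut_eq_finrank, h.deg]
  have hτp : τ ^ p = 1 := by
    rw [← hcard]; exact pow_card_eq_one'
  have hord : orderOf τ = p := orderOf_eq_prime hτp hτ1
  have hdvd : p ∣ q₀ - 1 := hord ▸ orderOf_dvd_of_pow_eq_one hpow1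
  -- g fixes ζ, hence K
  have hgζ : g (ζ : L) = (ζ : L) := by
    obtain ⟨c, hc⟩ := hdvd
    have : q₀ = p * c + 1 := by
      have := Nat.sub_add_cancel hq₀prime.one_le
      omega
    rw [h1L, this, pow_succ, pow_mul, hζ.pow_eq_one, one_pow, one_mul]
  have hfixK := hfix g hgζ
  -- every element of 𝓞 K ⧸ 𝔮 satisfies x ^ q₀ = x
  have hres : ∀ x : 𝓞 K ⧸ P.under (𝓞 K), x ^ q₀ = x := by
    intro x
    obtain ⟨x, rfl⟩ := Ideal.Quotient.mk_surjective x
    rw [← map_pow, Ideal.Quotient.eq, Ideal.under_def, Ideal.mem_comap, map_sub, map_pow]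
    have hx := hg (algebraMap (𝓞 K) (𝓞 L) x)
    have hfx : (MulSemiringAction.toAlgHom ℤ (𝓞 L) g) (algebraMap (𝓞 K) (𝓞 L) x) =
        algebraMap (𝓞 K) (𝓞 L) x := by
      apply RingOfIntegers.ext
      exact hfixK ⟨(x : K), by simp⟩
    rw [hfx] at hx
    have := P.neg_mem hx
    simpa using this
  have : Finite (𝓞 K ⧸ P.under (𝓞 K)) := hτ.finite_quotient
  have hle : Nat.card (𝓞 K ⧸ P.under (𝓞 K)) ≤ q₀ :=
    card_le_of_forall_pow_eq hq₀prime.one_lt hres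
  have hN : Ideal.absNorm (P.under (𝓞 K)) = Nat.card (𝓞 K ⧸ P.under (𝓞 K)) := by
    rw [Ideal.absNorm_apply, Submodule.cardQuot_apply]
  have hdvdN : q₀ ∣ Ideal.absNorm (P.under (𝓞 K)) := by
    have := Int.absNorm_under_dvd_absNorm (P.under (𝓞 K))
    rwa [Ideal.under_under, ← hq₀] at this
  have hpos : 0 < Nat.card (𝓞 K ⧸ P.under (𝓞 K)) := Nat.card_pos
  have hNq : Ideal.absNorm (P.under (𝓞 K)) = q₀ := by
    apply Nat.le_antisymm (hN ▸ hle)
    exact Nat.le_of_dvd (hN ▸ hpos) hdvdN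
  refine ⟨hNq ▸ hq₀prime, ?_, ?_⟩
  · rw [hNq]
    intro hqp
    apply hp
    have := Int.absNorm_under_mem P
    rwa [← hq₀, hqp] at this
  · rw [hNq]
    obtain ⟨c, hc⟩ := hdvd
    have : q₀ = p * c + 1 := by
      have := Nat.sub_add_cancel hq₀prime.one_le
      omega
    rw [this, Nat.mul_add_mod, Nat.mod_eq_of_lt h.prime.one_lt]


end FrobNorm

open FrobNorm in
/-- P-level form: a nontrivial Frobenius `τ ∈ Gal(L/K)` at `P` forces `N(P ∩ K)` to be a prime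
`≠ p`, `≡ 1 mod p`. -/
theorem absNorm_prime_of_isArithFrobAt_ne_one {p : ℕ} {L : Type} [Field L] [NumberField L]
    {K : IntermediateField ℚ L} (h : CATSetting p L K) [IsGalois K L]
    (P : Ideal (𝓞 L)) [P.IsPrime] (hP : P ≠ ⊥) (τ : L ≃ₐ[K] L)
    (hτ : IsArithFrobAt (𝓞 K) τ P) (hτ1 : τ ≠ 1) :
    (Ideal.absNorm (P.under (𝓞 K))).Prime ∧ Ideal.absNorm (P.under (𝓞 K)) ≠ p ∧
      Ideal.absNorm (P.under (𝓞 K)) % p = 1 :=
  FrobNorm.main h P hP τ hτ hτ1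

/-- RC step (0): a prime `𝔮` of `K` with `frobAt K L 𝔮 ≠ 1` has prime norm `≠ p`, `≡ 1 mod p`. -/
theorem absNorm_prime_of_frobAt_ne_one {p : ℕ} {L : Type} [Field L] [NumberField L]
    {K : IntermediateField ℚ L} (h : CATSetting p L K) [IsGalois K L]
    (𝔮 : Ideal (𝓞 K)) (hF : frobAt K L 𝔮 ≠ 1) :
    (Ideal.absNorm 𝔮).Prime ∧ Ideal.absNorm 𝔮 ≠ p ∧ Ideal.absNorm 𝔮 % p = 1 := by
  classical
  unfold frobAt at hF
  split_ifs at hF with hex
  · obtain ⟨hPprime, hPbot, hPunder⟩ := hex.choose_spec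
    have : hex.choose.IsPrime := hPprime
    have : Finite (𝓞 L ⧸ hex.choose) := Ideal.finiteQuotientOfFreeOfNeBot _ hPbot
    have hfrob : IsArithFrobAt (𝓞 K) (arithFrobAt (𝓞 K) (L ≃ₐ[K] L) hex.choose) hex.choose :=
      IsArithFrobAt.arithFrobAt (𝓞 K) (L ≃ₐ[K] L) hex.choose
    have := absNorm_prime_of_isArithFrobAt_ne_one h hex.choose hPbot _ hfrob hF
    rwa [hPunder] at this
  · exact absurd rfl hF

end Fermat.Agent.S14
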