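/-
T14 / RC step (2), abstract form: if the "crossing relations" hold between the primes, the Artin map
factors through `Cl / N`.  Mathlib only.
-/
import Mathlib

set_option autoImplicit false

namespace Fermat.Agent.S14.RC

section

variable {G : Type*} [Group G] {p : ℕ}

theorem pow_eq_one_iff_dvd_of_prime (hp : p.Prime) {σ : G} (hσ : σ ≠ 1) (hGp : σ ^ p = 1) (D : ℕ) :
    σ ^ D = 1 ↔ p ∣ D := by
  have := Fact.mk hp
  rw [← orderOf_eq_prime hGp hσ]
  exact orderOf_dvd_iff_pow_eq_one.symm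

theorem pow_eq_pow_of_mod_eq {g : G} (hg : g ^ p = 1) {a b : ℕ} (hab : a % p = b % p) :
    g ^ a = g ^ b := by
  rw [pow_eq_pow_mod a hg, pow_eq_pow_mod b hg, hab]

theorem eq_one_of_pow_eq_one_of_not_dvd (hp : p.Prime) {g : G} (hg : g ^ p = 1) {d : ℕ}
    (hd : ¬ p ∣ d) (hgd : g ^ d = 1) : g = 1 := by
  have h : g ^ (Nat.gcd d p) = 1 := pow_gcd_eq_one.mpr ⟨hgd, hg⟩
  rwa [Nat.Coprime.gcd_eq_one ((Nat.Prime.coprime_iff_not_dvd hp).mpr hd).symm, pow_one] at h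

theorem mod_eq_of_pow_eq_pow (hp : p.Prime) {σ : G} (hσ : σ ≠ 1) (hGp : σ ^ p = 1) {a b : ℕ}
    (h : σ ^ a = σ ^ b) : a % p = b % p := by
  have := Fact.mk hp
  have ho : orderOf σ = p := orderOf_eq_prime hGp hσ
  have := (pow_eq_pow_iff_modEq (x := σ) (n := a) (m := b)).mp h
  rwa [ho] at this

end

/-- **RC step (2)**, abstract form. -/
theorem art_eq_one_of_cl_mem {M G C : Type*} [CommMonoid M] [Group G] [CommGroup C] {p : ℕ}
    (hp : p.Prime) (σ : G) (hσ : σ ≠ 1) (hcyc : ∀ τ : G, ∃ d : ℕ, τ = σ ^ d) (hGp : σ ^ p = 1)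
    (N : Subgroup C) (hNp : ∀ c : C, c ^ p ∈ N) (hN : N ≠ ⊤)
    (art : M →* G) (cl : M →* C) (hcl : Function.Surjective cl)
    (Pr : Set M) (hPr : Submonoid.closure Pr = ⊤)
    (hsplit : ∀ q ∈ Pr, art q = 1 → cl q ∈ N)
    (hcross : ∀ q₀ ∈ Pr, ∀ q₁ ∈ Pr, ∀ d₀ d₁ : ℕ, art q₀ = σ ^ d₀ → art q₁ = σ ^ d₁ →
      ¬ p ∣ d₀ → ¬ p ∣ d₁ → cl q₀ ^ d₁ * (cl q₁ ^ d₀)⁻¹ ∈ N)
    (x : M) (hx : cl x ∈ N) : art x = 1 := by
  classical
  -- the quotient `Q = C / N`, killed by `p`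
  set π : C →* C ⧸ N := QuotientGroup.mk' N with hπ
  have hπ1 : ∀ c : C, π c = 1 ↔ c ∈ N := fun c => QuotientGroup.eq_one_iff c
  have hQp : ∀ c : C, (π c) ^ p = 1 := fun c => by
    rw [← map_pow, hπ1]; exact hNp c
  -- some prime has nontrivial symbol
  have hex : ∃ q₀ ∈ Pr, art q₀ ≠ 1 := by
    by_contra hcon
    push Not at hcon
    apply hN
    have hall : ∀ y : M, cl y ∈ N := by
      intro y
      have hy : y ∈ Submonoid.closure Pr := by rw [hPr]; trivial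
      induction hy using Submonoid.closure_induction with
      | mem q hq => exact hsplit q hq (hcon q hq)
      | one => rw [map_one]; exact N.one_mem
      | mul a b _ _ ha hb => rw [map_mul]; exact N.mul_mem ha hb
    rw [eq_top_iff]
    intro c _
    obtain ⟨y, rfl⟩ := hcl c
    exact hall y
  obtain ⟨q₀, hq₀, hq₀1⟩ := hex
  obtain ⟨d₀, hd₀⟩ := hcyc (art q₀)
  have hpd₀ : ¬ p ∣ d₀ := fun h => hq₀1 (by
    rw [hd₀]; exact (pow_eq_one_iff_dvd_of_prime hp hσ hGp d₀).mpr h)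
  set c₀ : C ⧸ N := π (cl q₀) with hc₀
  have hc₀p : c₀ ^ p = 1 := hQp _
  -- key relation
  have key : ∀ y : M, ∀ D : ℕ, art y = σ ^ D → (π (cl y)) ^ d₀ = c₀ ^ D := by
    intro y
    have hy : y ∈ Submonoid.closure Pr := by rw [hPr]; trivial
    induction hy using Submonoid.closure_induction with
    | mem q hq =>
      intro D hD
      by_cases hpD : p ∣ D
      · have h1 : art q = 1 := by
          rw [hD]; exact (pow_eq_one_iff_dvd_of_prime hp hσ hGp D).mpr hpD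
        have h2 : π (cl q) = 1 := (hπ1 _).mpr (hsplit q hq h1)
        obtain ⟨t, rfl⟩ := hpD
        rw [h2, one_pow, pow_mul, hc₀p, one_pow]
      · have h3 := hcross q₀ hq₀ q hq d₀ D hd₀ hD hpd₀ hpD
        have h4 := (hπ1 _).mpr h3
        rw [map_mul, map_inv, map_pow, map_pow, mul_inv_eq_one] at h4
        exact h4.symm
    | one =>
      intro D hD
      rw [map_one] at hD
      have hpD : p ∣ D := (pow_eq_one_iff_dvd_of_prime hp hσ hGp D).mp hD.symm
      obtain ⟨t, rfl⟩ := hpD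
      rw [map_one, map_one, one_pow, pow_mul, hc₀p, one_pow]
    | mul a b _ _ ha hb =>
      intro D hD
      obtain ⟨Da, hDa⟩ := hcyc (art a)
      obtain ⟨Db, hDb⟩ := hcyc (art b)
      have hmod : D % p = (Da + Db) % p := by
        apply mod_eq_of_pow_eq_pow hp hσ hGp
        rw [← hD, map_mul, hDa, hDb, pow_add]
      rw [map_mul, map_mul, mul_pow, ha Da hDa, hb Db hDb, ← pow_add]
      exact (pow_eq_pow_of_mod_eq hc₀p hmod).symm
  -- conclusion
  obtain ⟨D, hD⟩ := hcyc (art x)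
  have h1 : c₀ ^ D = 1 := by
    rw [← key x D hD, (hπ1 _).mpr hx, one_pow]
  by_cases hpD : p ∣ D
  · rw [hD]; exact (pow_eq_one_iff_dvd_of_prime hp hσ hGp D).mpr hpD
  · exfalso
    have hc₀1 : c₀ = 1 := eq_one_of_pow_eq_one_of_not_dvd hp hc₀p hpD h1
    apply hN
    rw [eq_top_iff]
    intro c _
    obtain ⟨y, rfl⟩ := hcl c
    obtain ⟨Dy, hDy⟩ := hcyc (art y)
    have h2 := key y Dy hDy
    rw [hc₀1, one_pow] at h2
    exact (hπ1 _).mp (eq_one_of_pow_eq_one_of_not_dvd hp (hQp _) hpd₀ h2)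

end Fermat.Agent.S14.RC
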