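/-
T14 / RC step (2), number field form: if the crossing relations hold between all pairs of primes with
nontrivial Frobenius, then the Artin map of an unramified cyclic extension of prime degree kills every
ideal whose class lies in `normClasses K L` (in particular every principal ideal).
-/
import Fermat.Agent.S14.RC.GroupLemma
import Fermat.Agent.S14.Artin

set_option autoImplicit false

open NumberField nonZeroDivisors

namespace Fermat.Agent.S14.RC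

/-- The nonzero primes generate the monoid of nonzero ideals. -/
theorem closure_primes_eq_top (K : Type*) [Field K] [NumberField K] :
    Submonoid.closure {I : (Ideal (𝓞 K))⁰ | (I : Ideal (𝓞 K)).IsPrime} = ⊤ := by
  have key : ∀ J : Ideal (𝓞 K), ∀ hJ : J ∈ (Ideal (𝓞 K))⁰,
      (⟨J, hJ⟩ : (Ideal (𝓞 K))⁰) ∈
        Submonoid.closure {I : (Ideal (𝓞 K))⁰ | (I : Ideal (𝓞 K)).IsPrime} := by
    intro J
    induction J using UniqueFactorizationMonoid.induction_on_prime with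
    | h₁ =>
      intro hJ
      exact absurd rfl (nonZeroDivisors.ne_zero hJ)
    | h₂ x hx =>
      intro hJ
      have hx1 : x = 1 := by
        rw [Ideal.isUnit_iff] at hx
        rw [hx, Ideal.one_eq_top]
      have : (⟨x, hJ⟩ : (Ideal (𝓞 K))⁰) = 1 := Subtype.ext hx1
      rw [this]
      exact Submonoid.one_mem _
    | h₃ a q ha hq ih =>
      intro hJ
      have hq0 : q ≠ 0 := hq.ne_zero
      have hqm : q ∈ (Ideal (𝓞 K))⁰ := mem_nonZeroDivisors_of_ne_zero hq0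
      have ham : a ∈ (Ideal (𝓞 K))⁰ := mem_nonZeroDivisors_of_ne_zero ha
      have : (⟨q * a, hJ⟩ : (Ideal (𝓞 K))⁰) = ⟨q, hqm⟩ * ⟨a, ham⟩ := Subtype.ext rfl
      rw [this]
      refine Submonoid.mul_mem _ (Submonoid.subset_closure ?_) (ih ham)
      exact Ideal.isPrime_of_prime hq
  rw [eq_top_iff]
  rintro ⟨J, hJ⟩ -
  exact key J hJ

/-- **RC step (2)**: reciprocity from the crossing relations. -/
theorem artinMap_eq_one_of_mk0_mem (K L : Type*) [Field K] [NumberField K] [Field L]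
    [NumberField L] [Algebra K L] [IsAbelianGalois K L] {p : ℕ} (hp : p.Prime)
    (hdeg : Module.finrank K L = p) (σ : L ≃ₐ[K] L) (hσ : σ ≠ 1)
    (hunr : UnramifiedEverywhere K L) (hN : normClasses K L ≠ ⊤)
    (hcross : ∀ (𝔮₀ 𝔮₁ : Ideal (𝓞 K)) [𝔮₀.IsPrime] [𝔮₁.IsPrime] (h₀ : 𝔮₀ ≠ ⊥) (h₁ : 𝔮₁ ≠ ⊥)
      (d₀ d₁ : ℕ), frobAt K L 𝔮₀ = σ ^ d₀ → frobAt K L 𝔮₁ = σ ^ d₁ → ¬ p ∣ d₀ → ¬ p ∣ d₁ →
        ClassGroup.mk0 ⟨𝔮₀, mem_nonZeroDivisors_of_ne_zero h₀⟩ ^ d₁ *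
          (ClassGroup.mk0 ⟨𝔮₁, mem_nonZeroDivisors_of_ne_zero h₁⟩ ^ d₀)⁻¹ ∈ normClasses K L)
    (I : (Ideal (𝓞 K))⁰) (hI : ClassGroup.mk0 I ∈ normClasses K L) : artinMap K L I = 1 := by
  have := Fact.mk hp
  have hcard : Nat.card (L ≃ₐ[K] L) = p := by rw [IsGalois.card_aut_eq_finrank, hdeg]
  have hfin : Finite (L ≃ₐ[K] L) := Nat.finite_of_card_ne_zero (by rw [hcard]; exact hp.ne_zero)
  have hGp : σ ^ p = 1 := by rw [← hcard]; exact pow_card_eq_one'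
  have hcyc : ∀ τ : L ≃ₐ[K] L, ∃ d : ℕ, τ = σ ^ d := by
    intro τ
    have hz : Subgroup.zpowers σ = ⊤ := zpowers_eq_top_of_prime_card hcard hσ
    have hτ : τ ∈ Subgroup.zpowers σ := by rw [hz]; trivial
    rw [← mem_powers_iff_mem_zpowers] at hτ
    obtain ⟨d, hd⟩ := hτ
    exact ⟨d, hd.symm⟩
  refine art_eq_one_of_cl_mem hp σ hσ hcyc hGp (normClasses K L)
    (fun c => by rw [← hdeg]; exact pow_finrank_mem_normClasses K L c) hN (artinMap K L)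
    ClassGroup.mk0 ClassGroup.mk0_surjective
    {I : (Ideal (𝓞 K))⁰ | (I : Ideal (𝓞 K)).IsPrime} (closure_primes_eq_top K) ?_ ?_ I hI
  · rintro ⟨𝔮, h𝔮⟩ (hq : 𝔮.IsPrime) h1
    have h0 : 𝔮 ≠ ⊥ := nonZeroDivisors.ne_zero h𝔮
    rw [artinMap_mk_prime K L 𝔮 h0] at h1
    exact mk0_mem_normClasses_of_frobAt_eq_one K L hunr 𝔮 h0 h1
  · rintro ⟨𝔮₀, h𝔮₀⟩ (hq₀ : 𝔮₀.IsPrime) ⟨𝔮₁, h𝔮₁⟩ (hq₁ : 𝔮₁.IsPrime) d₀ d₁ hd₀ hd₁ hpd₀ hpd₁
    have h0 : 𝔮₀ ≠ ⊥ := nonZeroDivisors.ne_zero h𝔮₀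
    have h1 : 𝔮₁ ≠ ⊥ := nonZeroDivisors.ne_zero h𝔮₁
    rw [artinMap_mk_prime K L 𝔮₀ h0] at hd₀
    rw [artinMap_mk_prime K L 𝔮₁ h1] at hd₁
    exact hcross 𝔮₀ 𝔮₁ h0 h1 d₀ d₁ hd₀ hd₁ hpd₀ hpd₁

/-- In particular nonzero principal ideals have trivial Artin symbol. -/
theorem artinMap_span_singleton_eq_one (K L : Type*) [Field K] [NumberField K] [Field L]
    [NumberField L] [Algebra K L] [IsAbelianGalois K L] {p : ℕ} (hp : p.Prime)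
    (hdeg : Module.finrank K L = p) (σ : L ≃ₐ[K] L) (hσ : σ ≠ 1)
    (hunr : UnramifiedEverywhere K L) (hN : normClasses K L ≠ ⊤)
    (hcross : ∀ (𝔮₀ 𝔮₁ : Ideal (𝓞 K)) [𝔮₀.IsPrime] [𝔮₁.IsPrime] (h₀ : 𝔮₀ ≠ ⊥) (h₁ : 𝔮₁ ≠ ⊥)
      (d₀ d₁ : ℕ), frobAt K L 𝔮₀ = σ ^ d₀ → frobAt K L 𝔮₁ = σ ^ d₁ → ¬ p ∣ d₀ → ¬ p ∣ d₁ →
        ClassGroup.mk0 ⟨𝔮₀, mem_nonZeroDivisors_of_ne_zero h₀⟩ ^ d₁ *
          (ClassGroup.mk0 ⟨𝔮₁, mem_nonZeroDivisors_of_ne_zero h₁⟩ ^ d₀)⁻¹ ∈ normClasses K L)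
    (x : 𝓞 K) (hx : x ≠ 0) :
    artinMap K L ⟨Ideal.span {x}, mem_nonZeroDivisors_of_ne_zero
      (by simpa [Ideal.zero_eq_bot, Ideal.span_singleton_eq_bot] using hx)⟩ = 1 := by
  refine artinMap_eq_one_of_mk0_mem K L hp hdeg σ hσ hunr hN hcross _ ?_
  have : ClassGroup.mk0 (⟨Ideal.span {x}, mem_nonZeroDivisors_of_ne_zero
      (by simpa [Ideal.zero_eq_bot, Ideal.span_singleton_eq_bot] using hx)⟩ :
        (Ideal (𝓞 K))⁰) = 1 := by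
    rw [ClassGroup.mk0_eq_one_iff]
    exact ⟨⟨x, rfl⟩⟩
  rw [this]
  exact Subgroup.one_mem _

end Fermat.Agent.S14.RC
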