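/-
T14 / RC: the relations between the classes of primes modulo norms obtained from `crossing_step`
(P2), and its consequence: an ideal with trivial Artin symbol has its class in `N Cl(L)`.
-/
import Fermat.Agent.S14.Artin
import Fermat.Agent.S14.RC.Setup
import Fermat.Agent.S14.RC.DegreeOne
import Fermat.Agent.S14.RC.AuxPrime
import Fermat.Agent.S14.NonSplit
import Fermat.Agent.S14.Crossing

set_option autoImplicit false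
set_option linter.unusedSectionVars false
set_option linter.style.haveILetI false
set_option linter.unusedVariables false

open NumberField nonZeroDivisors

namespace Fermat.Agent.S14.RC

section General

variable (K L : Type*) [Field K] [NumberField K] [Field L] [NumberField L] [Algebra K L]

/-- the class of a nonzero ideal in `Cl(K) / N Cl(L)` -/
noncomputable def cl : (Ideal (𝓞 K))⁰ →* ClassGroup (𝓞 K) ⧸ normClasses K L :=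
  (QuotientGroup.mk' (normClasses K L)).comp ClassGroup.mk0

theorem cl_apply (I : (Ideal (𝓞 K))⁰) :
    cl K L I = QuotientGroup.mk (ClassGroup.mk0 I) := rfl

theorem cl_eq_one_iff (I : (Ideal (𝓞 K))⁰) :
    cl K L I = 1 ↔ ClassGroup.mk0 I ∈ normClasses K L := by
  rw [cl_apply, QuotientGroup.eq_one_iff]

theorem cl_surjective : Function.Surjective (cl K L) := by
  intro c
  obtain ⟨c, rfl⟩ := QuotientGroup.mk_surjective c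
  obtain ⟨I, rfl⟩ := ClassGroup.mk0_surjective c
  exact ⟨I, rfl⟩

theorem quot_pow_finrank (c : ClassGroup (𝓞 K) ⧸ normClasses K L) :
    c ^ Module.finrank K L = 1 := by
  obtain ⟨c, rfl⟩ := QuotientGroup.mk_surjective c
  rw [← QuotientGroup.mk_pow, QuotientGroup.eq_one_iff]
  exact pow_finrank_mem_normClasses K L c

end General

variable {p : ℕ} {L : Type} [Field L] [NumberField L] {K : IntermediateField ℚ L}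

theorem quot_pow_p (h : CATSetting p L K) (c : ClassGroup (𝓞 K) ⧸ normClasses K L) :
    c ^ p = 1 := by
  rw [← h.deg]
  exact quot_pow_finrank K L c

theorem quot_pow_eq_of_modEq (h : CATSetting p L K) (c : ClassGroup (𝓞 K) ⧸ normClasses K L)
    {a b : ℕ} (hab : a ≡ b [MOD p]) : c ^ a = c ^ b := by
  rw [pow_eq_pow_mod a (quot_pow_p h c), pow_eq_pow_mod b (quot_pow_p h c), hab]

theorem orderOf_eq_p (h : CATSetting p L K) [IsGalois K L] (σ : L ≃ₐ[K] L) (hσ : σ ≠ 1) :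
    orderOf σ = p := by
  have h8 : orderOf σ ∣ p := orderOf_dvd_of_pow_eq_one (pow_p_eq_one h σ)
  rcases (Nat.dvd_prime h.prime).1 h8 with h9 | h9
  · exact absurd (orderOf_eq_one_iff.1 h9) hσ
  · exact h9

theorem pow_eq_pow_iff (h : CATSetting p L K) [IsGalois K L] (σ : L ≃ₐ[K] L) (hσ : σ ≠ 1)
    (a b : ℕ) : σ ^ a = σ ^ b ↔ a ≡ b [MOD p] := by
  rw [pow_eq_pow_iff_modEq, orderOf_eq_p h σ hσ]

theorem pow_eq_one_iff_dvd (h : CATSetting p L K) [IsGalois K L] (σ : L ≃ₐ[K] L) (hσ : σ ≠ 1)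
    (a : ℕ) : σ ^ a = 1 ↔ p ∣ a := by
  rw [← orderOf_eq_p h σ hσ]
  exact orderOf_dvd_iff_pow_eq_one.symm

/-- `crossing_step` in the quotient group -/
theorem cl_crossing (h : CATSetting p L K) [IsAbelianGalois K L] (σ : L ≃ₐ[K] L) (hσ : σ ≠ 1)
    (𝔞 𝔟 : Ideal (𝓞 K)) [𝔞.IsPrime] [𝔟.IsPrime] (h𝔞 : 𝔞 ≠ ⊥) (h𝔟 : 𝔟 ≠ ⊥)
    (a b : ℕ) (ha : a.Prime) (hb : b.Prime) (hap : a ≠ p) (hbp : b ≠ p)
    (hNa : Ideal.absNorm 𝔞 = a) (hNb : Ideal.absNorm 𝔟 = b)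
    (i k : ℕ) (hi : ¬ p ∣ i) (hFa : frobAt K L 𝔞 = σ ^ i) (hFb : frobAt K L 𝔟 = σ ^ k)
    (m : ℕ) (hm : m.Prime) (hmp : m % p = 1) (hma : m ≠ a) (hmb : m ≠ b)
    (hanp : ¬ ∃ y : ZMod m, y ^ p = (a : ZMod m))
    (hab : ∃ y : ZMod m, (a : ZMod m) ^ k = (b : ZMod m) ^ i * y ^ p) :
    cl K L ⟨𝔞, mem_nonZeroDivisors_of_ne_zero h𝔞⟩ ^ k =
      cl K L ⟨𝔟, mem_nonZeroDivisors_of_ne_zero h𝔟⟩ ^ i := by
  have := crossing_step h σ hσ 𝔞 𝔟 h𝔞 h𝔟 a b ha hb hap hbp hNa hNb i k hi hFa hFb m hm hmp hma hmb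
    hanp hab
  rw [← QuotientGroup.eq_one_iff] at this
  rw [QuotientGroup.mk_mul, QuotientGroup.mk_inv, QuotientGroup.mk_pow, QuotientGroup.mk_pow,
    mul_inv_eq_one] at this
  exact this

/-- P2 for primes over distinct rational primes. -/
theorem p2_of_ne (h : CATSetting p L K) [IsAbelianGalois K L] (σ : L ≃ₐ[K] L) (hσ : σ ≠ 1)
    (𝔮₀ 𝔮₁ : Ideal (𝓞 K)) [𝔮₀.IsPrime] [𝔮₁.IsPrime] (h₀ : 𝔮₀ ≠ ⊥) (h₁ : 𝔮₁ ≠ ⊥)
    (d₀ d₁ : ℕ) (hd₀ : ¬ p ∣ d₀) (hd₁ : ¬ p ∣ d₁)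
    (hF₀ : frobAt K L 𝔮₀ = σ ^ d₀) (hF₁ : frobAt K L 𝔮₁ = σ ^ d₁)
    (hne : Ideal.absNorm 𝔮₀ ≠ Ideal.absNorm 𝔮₁) :
    cl K L ⟨𝔮₁, mem_nonZeroDivisors_of_ne_zero h₁⟩ ^ d₀ =
      cl K L ⟨𝔮₀, mem_nonZeroDivisors_of_ne_zero h₀⟩ ^ d₁ := by
  haveI := h.cyclo
  have hne₀ : frobAt K L 𝔮₀ ≠ 1 := by
    rw [hF₀, Ne, pow_eq_one_iff_dvd h σ hσ]
    exact hd₀
  have hne₁ : frobAt K L 𝔮₁ ≠ 1 := by
    rw [hF₁, Ne, pow_eq_one_iff_dvd h σ hσ]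
    exact hd₁
  obtain ⟨q₀, hq₀, hq₀p, -, hN₀⟩ := absNorm_prime_of_frobAt_ne_one h 𝔮₀ h₀ hne₀
  obtain ⟨q₁, hq₁, hq₁p, -, hN₁⟩ := absNorm_prime_of_frobAt_ne_one h 𝔮₁ h₁ hne₁
  have hqq : q₁ ≠ q₀ := by
    rw [← hN₀, ← hN₁]
    exact hne.symm
  have hp2 : p ≠ 2 := by have := h.three_le; omega
  obtain ⟨m, hm, hmp, -, -, hma, hmb, hanp, hab⟩ :=
    AuxPrime.exists_aux_prime h.prime hp2 K q₁ q₀ hq₁ hq₀ hqq d₁ d₀ hd₁ ∅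
  exact cl_crossing h σ hσ 𝔮₁ 𝔮₀ h₁ h₀ q₁ q₀ hq₁ hq₀ hq₁p hq₀p hN₁ hN₀ d₁ d₀ hd₁ hF₁ hF₀ m hm hmp
    hma hmb hanp hab

/-- cancelling an exponent prime to `p` in `Cl(K) / N Cl(L)` -/
theorem quot_eq_of_pow_eq (h : CATSetting p L K) (x y : ClassGroup (𝓞 K) ⧸ normClasses K L)
    (d : ℕ) (hd : ¬ p ∣ d) (hxy : x ^ d = y ^ d) : x = y := by
  have hcop : Nat.Coprime d p := ((Nat.Prime.coprime_iff_not_dvd h.prime).2 hd).symm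
  have hz : (x * y⁻¹) ^ d = 1 := by
    rw [mul_pow, inv_pow, hxy, mul_inv_cancel]
  have hz' : (x * y⁻¹) ^ p = 1 := quot_pow_p h _
  have h1 : (x * y⁻¹) ^ Nat.gcd d p = 1 := by
    rw [← orderOf_dvd_iff_pow_eq_one] at hz hz' ⊢
    exact Nat.dvd_gcd hz hz'
  rw [hcop.gcd_eq_one, pow_one] at h1
  exact mul_inv_eq_one.mp h1

/-- existence of a prime with nontrivial Frobenius outside a finite set of absolute norms -/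
theorem exists_prime_frobAt_ne_one (h : CATSetting p L K) [IsAbelianGalois K L] (n : ℕ) :
    ∃ 𝔯 : Ideal (𝓞 K), 𝔯.IsPrime ∧ 𝔯 ≠ ⊥ ∧ Ideal.absNorm 𝔯 ≠ n ∧ frobAt K L 𝔯 ≠ 1 := by
  classical
  have hfin : {I : Ideal (𝓞 K) | Ideal.absNorm I = n}.Finite := Ideal.finite_setOfPred_absNorm_eq n
  have hdeg : 1 < Module.finrank K L := by rw [h.deg]; exact h.prime.one_lt
  obtain ⟨𝔯, h𝔯p, h𝔯0, -, h𝔯B, hns⟩ := exists_prime_not_split K L hdeg hfin.toFinset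
  haveI := h𝔯p
  refine ⟨𝔯, h𝔯p, h𝔯0, ?_, frobAt_ne_one_of_not_split h.unram h𝔯0 hns⟩
  intro hn
  apply h𝔯B
  rw [Set.Finite.mem_toFinset]
  exact hn

/-- P2 in general. -/
theorem p2 (h : CATSetting p L K) [IsAbelianGalois K L] (σ : L ≃ₐ[K] L) (hσ : σ ≠ 1)
    (𝔮₀ 𝔮₁ : Ideal (𝓞 K)) [𝔮₀.IsPrime] [𝔮₁.IsPrime] (h₀ : 𝔮₀ ≠ ⊥) (h₁ : 𝔮₁ ≠ ⊥)
    (d₀ d₁ : ℕ) (hd₀ : ¬ p ∣ d₀) (hd₁ : ¬ p ∣ d₁)
    (hF₀ : frobAt K L 𝔮₀ = σ ^ d₀) (hF₁ : frobAt K L 𝔮₁ = σ ^ d₁) :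
    cl K L ⟨𝔮₁, mem_nonZeroDivisors_of_ne_zero h₁⟩ ^ d₀ =
      cl K L ⟨𝔮₀, mem_nonZeroDivisors_of_ne_zero h₀⟩ ^ d₁ := by
  by_cases hne : Ideal.absNorm 𝔮₀ ≠ Ideal.absNorm 𝔮₁
  · exact p2_of_ne h σ hσ 𝔮₀ 𝔮₁ h₀ h₁ d₀ d₁ hd₀ hd₁ hF₀ hF₁ hne
  · rw [not_not] at hne
    obtain ⟨𝔮₂, hp₂, h₂, hN₂, hF₂ne⟩ := exists_prime_frobAt_ne_one h (Ideal.absNorm 𝔮₀)
    haveI := hp₂
    obtain ⟨d₂, -, hF₂⟩ := exists_pow_eq h σ hσ (frobAt K L 𝔮₂)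
    have hd₂ : ¬ p ∣ d₂ := by
      rw [← pow_eq_one_iff_dvd h σ hσ, ← hF₂]
      exact hF₂ne
    -- `c₂ ^ d₀ = c₀ ^ d₂` and `c₂ ^ d₁ = c₁ ^ d₂`
    have e₀ := p2_of_ne h σ hσ 𝔮₀ 𝔮₂ h₀ h₂ d₀ d₂ hd₀ hd₂ hF₀ hF₂ (Ne.symm hN₂)
    have e₁ := p2_of_ne h σ hσ 𝔮₁ 𝔮₂ h₁ h₂ d₁ d₂ hd₁ hd₂ hF₁ hF₂ (by rw [← hne]; exact Ne.symm hN₂)
    apply quot_eq_of_pow_eq h _ _ d₂ hd₂
    rw [← pow_mul, ← pow_mul, mul_comm d₀ d₂, mul_comm d₁ d₂, pow_mul, pow_mul, ← e₀, ← e₁,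
      ← pow_mul, ← pow_mul, mul_comm]

/-- every prime, relative to a reference prime `𝔯` with `σ = Frob_𝔯 ≠ 1`. -/
theorem cl_prime_eq (h : CATSetting p L K) [IsAbelianGalois K L]
    (𝔯 : Ideal (𝓞 K)) [𝔯.IsPrime] (h𝔯 : 𝔯 ≠ ⊥) (hσ : frobAt K L 𝔯 ≠ 1)
    (𝔮 : Ideal (𝓞 K)) [𝔮.IsPrime] (h𝔮 : 𝔮 ≠ ⊥) (d : ℕ) (hF : frobAt K L 𝔮 = frobAt K L 𝔯 ^ d) :
    cl K L ⟨𝔮, mem_nonZeroDivisors_of_ne_zero h𝔮⟩ =
      cl K L ⟨𝔯, mem_nonZeroDivisors_of_ne_zero h𝔯⟩ ^ d := by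
  by_cases hd : p ∣ d
  · have h1 : frobAt K L 𝔮 = 1 := by
      rw [hF, pow_eq_one_iff_dvd h _ hσ]
      exact hd
    have hmem := mk0_mem_normClasses_of_frobAt_eq_one K L h.unram 𝔮 h𝔮 h1
    rw [(cl_eq_one_iff K L _).2 hmem]
    obtain ⟨k, rfl⟩ := hd
    rw [pow_mul, quot_pow_p h, one_pow]
  · have := p2 h (frobAt K L 𝔯) hσ 𝔯 𝔮 h𝔯 h𝔮 1 d (by
      intro h1
      exact h.prime.one_lt.ne' (Nat.dvd_one.mp h1)) hd (pow_one _).symm hF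
    rwa [pow_one] at this

/-- every nonzero ideal, relative to a reference prime. -/
theorem cl_eq_of_artinMap (h : CATSetting p L K) [IsAbelianGalois K L]
    (𝔯 : Ideal (𝓞 K)) [𝔯.IsPrime] (h𝔯 : 𝔯 ≠ ⊥) (hσ : frobAt K L 𝔯 ≠ 1)
    (I : (Ideal (𝓞 K))⁰) (d : ℕ) (hF : artinMap K L I = frobAt K L 𝔯 ^ d) :
    cl K L I = cl K L ⟨𝔯, mem_nonZeroDivisors_of_ne_zero h𝔯⟩ ^ d := by
  obtain ⟨I, hI⟩ := I
  have hI0 : I ≠ 0 := nonZeroDivisors.ne_zero hI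
  revert hI d
  induction I using UniqueFactorizationMonoid.induction_on_prime with
  | h₁ => exact absurd rfl hI0
  | h₂ x hx =>
    intro d hI hF
    have e1 : (⟨x, hI⟩ : (Ideal (𝓞 K))⁰) = 1 :=
      Subtype.ext ((Ideal.isUnit_iff.mp hx).trans Ideal.one_eq_top.symm)
    rw [e1, map_one] at hF
    rw [e1, map_one]
    have hd : p ∣ d := (pow_eq_one_iff_dvd h _ hσ d).1 hF.symm
    obtain ⟨k, rfl⟩ := hd
    rw [pow_mul, quot_pow_p h, one_pow]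
  | h₃ a q ha hq ih =>
    intro d hI hF
    have hq0 : q ≠ ⊥ := hq.ne_zero
    haveI hqP : q.IsPrime := Ideal.isPrime_of_prime hq
    have e : (⟨q * a, hI⟩ : (Ideal (𝓞 K))⁰) =
        ⟨q, mem_nonZeroDivisors_of_ne_zero hq0⟩ * ⟨a, mem_nonZeroDivisors_of_ne_zero ha⟩ := rfl
    rw [e, map_mul, artinMap_mk_prime K L q hq0] at hF
    obtain ⟨d', -, hd'⟩ := exists_pow_eq h (frobAt K L 𝔯) hσ (frobAt K L q)
    obtain ⟨d'', -, hd''⟩ := exists_pow_eq h (frobAt K L 𝔯) hσ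
      (artinMap K L ⟨a, mem_nonZeroDivisors_of_ne_zero ha⟩)
    rw [hd', hd'', ← pow_add, pow_eq_pow_iff h _ hσ] at hF
    rw [e, map_mul, cl_prime_eq h 𝔯 h𝔯 hσ q hq0 d' hd', ih ha d'' _ hd'', ← pow_add]
    exact quot_pow_eq_of_modEq h _ hF

/-- **Claim A**: an ideal with trivial Artin symbol has its class in `N Cl(L)`. -/
theorem mk0_mem_normClasses_of_artinMap_eq_one (h : CATSetting p L K) [IsAbelianGalois K L]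
    (I : (Ideal (𝓞 K))⁰) (hI : artinMap K L I = 1) :
    ClassGroup.mk0 I ∈ normClasses K L := by
  obtain ⟨𝔯, hp𝔯, h𝔯, -, hσ⟩ := exists_prime_frobAt_ne_one h 0
  haveI := hp𝔯
  rw [← cl_eq_one_iff, cl_eq_of_artinMap h 𝔯 h𝔯 hσ I 0 (by rw [hI, pow_zero]), pow_zero]

end Fermat.Agent.S14.RC
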